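import Fermat.Agent.Schoof.Cayley

set_option autoImplicit false

/-!
# The Cayley-Hamilton relation for Frobenius on all points
-/

open Polynomial WeierstrassCurve WeierstrassCurve.Affine WeierstrassCurve.Affine.Point

namespace Fermat.Agent.Schoof

variable {F : Type*} [Field F] [Fintype F] {a₂ a₄ a₆ : F} [(cur a₂ a₄ a₆).IsElliptic]

/-- the trace of Frobenius -/
noncomputable def tr (a₂ a₄ a₆ : F) : ℤ :=
  ((Fintype.card F : ℕ) : ℤ) + 1 - Nat.card (cur a₂ a₄ a₆).toAffine.Point

/-- the Cayley-Hamilton expression -/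
noncomputable def CH (a₂ a₄ a₆ : F) (L : Type*) [Field L] [Algebra F L] [DecidableEq L] :
    ((cur a₂ a₄ a₆)⁄L).Point →+ ((cur a₂ a₄ a₆)⁄L).Point :=
  (2 : ℤ) • ((frob a₂ a₄ a₆ L).comp (frob a₂ a₄ a₆ L) - tr a₂ a₄ a₆ • frob a₂ a₄ a₆ L +
    ((Fintype.card F : ℕ) : ℤ) • AddMonoidHom.id _)

omit [(cur a₂ a₄ a₆).IsElliptic] in
lemma CH_apply (L : Type*) [Field L] [Algebra F L] [DecidableEq L]
    (P : ((cur a₂ a₄ a₆)⁄L).Point) :
    CH a₂ a₄ a₆ L P = (2 : ℤ) • (frob a₂ a₄ a₆ L (frob a₂ a₄ a₆ L P) -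
      tr a₂ a₄ a₆ • frob a₂ a₄ a₆ L P + ((Fintype.card F : ℕ) : ℤ) • P) := by
  simp [CH]

omit [(cur a₂ a₄ a₆).IsElliptic] in
lemma CH_map {L M : Type*} [Field L] [Algebra F L] [DecidableEq L] [Field M] [Algebra F M]
    [DecidableEq M] (θ : L →ₐ[F] M) (P : ((cur a₂ a₄ a₆)⁄L).Point) :
    CH a₂ a₄ a₆ M (Point.map θ P) = Point.map θ (CH a₂ a₄ a₆ L P) := by
  rw [CH_apply, CH_apply, frob_map, frob_map]
  simp only [map_zsmul, map_add, map_sub]

lemma CH_of_transcendental (hF : ringChar F ≠ 2) {L : Type*} [Field L] [Algebra F L]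
    [DecidableEq L] (x y : L) (hx : Transcendental F x)
    (h : ((cur a₂ a₄ a₆)⁄L).Nonsingular x y) :
    CH a₂ a₄ a₆ L (.some x y h) = 0 := by
  obtain ⟨θ, hθ, -⟩ := exists_hom_point x y hx h
  rw [← hθ, CH_map, CH_apply, tr, cayley_generic hF, _root_.map_zero]

/-- The Cayley-Hamilton relation for Frobenius at all points. -/
theorem CH_eq_zero (hF : ringChar F ≠ 2) (L : Type*) [Field L] [Algebra F L]
    [DecidableEq L] (P : ((cur a₂ a₄ a₆)⁄L).Point) : CH a₂ a₄ a₆ L P = 0 := by
  classical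
  let M := AlgebraicClosure (RatFunc L)
  let x0 : M := algebraMap (RatFunc L) M RatFunc.X
  obtain ⟨y0, hy0⟩ := IsAlgClosed.exists_pow_nat_eq (aeval x0 (cub a₂ a₄ a₆)) (n := 2) two_pos
  have hx0 : Transcendental L x0 := by
    have h1 : Transcendental L (RatFunc.X : RatFunc L) := by
      exact RatFunc.transcendental_X
    exact (transcendental_algebraMap_iff (algebraMap (RatFunc L) M).injective).mpr h1
  have hns : ((cur a₂ a₄ a₆)⁄M).Nonsingular x0 y0 := nonsing_of_eq a₂ a₄ a₆ hy0
  let ι : L →ₐ[F] M := IsScalarTower.toAlgHom F L M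
  let P0 : ((cur a₂ a₄ a₆)⁄M).Point := .some x0 y0 hns
  have hsum : CH a₂ a₄ a₆ M (P0 + Point.map ι P) = 0 := by
    let K := algebraicClosure L M
    have hst : IsScalarTower F K M := IsScalarTower.of_algebraMap_eq fun r => by
      rw [IsScalarTower.algebraMap_apply F L K, IsScalarTower.algebraMap_apply F L M]; rfl
    let κ : K →ₐ[F] M := IsScalarTower.toAlgHom F K M
    let κ' : L →ₐ[F] K := IsScalarTower.toAlgHom F L K
    have hκ : κ.comp κ' = ι := by
      ext z
      rfl
    have hιP : Point.map ι P = Point.map κ (Point.map κ' P) := by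
      rw [Point.map_map, hκ]
    have hP0 : ∀ Q : ((cur a₂ a₄ a₆)⁄K).Point, Point.map κ Q ≠ P0 := by
      intro Q hQ
      match Q with
      | 0 => simp [P0] at hQ
      | .some x y h =>
        rw [Point.map_some, some.injEq] at hQ
        apply hx0
        rw [← hQ.1]
        exact mem_algebraicClosure_iff.mp x.2
    have hx : ∀ R : ((cur a₂ a₄ a₆)⁄M).Point, R = P0 + Point.map ι P →
        CH a₂ a₄ a₆ M R = 0 := by
      intro R hR
      match R, hR with
      | 0, _ => exact _root_.map_zero _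
      | .some x y h, hR =>
        refine CH_of_transcendental hF _ _ ?_ _
        intro hxa
        have hxL : IsAlgebraic L x := hxa.tower_top L
        have hyL : IsAlgebraic L y := by
          have h1 : IsAlgebraic L (y ^ 2) := by
            rw [eq_of_nonsing a₂ a₄ a₆ h]
            have h2 : aeval x (cub a₂ a₄ a₆) =
                κ (aeval (⟨x, mem_algebraicClosure_iff.mpr hxL⟩ : K) (cub a₂ a₄ a₆)) := by
              rw [← aeval_algHom_apply]
              rfl
            rw [h2]
            exact mem_algebraicClosure_iff.mp (aeval (⟨x, mem_algebraicClosure_iff.mpr hxL⟩ : K)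
              (cub a₂ a₄ a₆)).2
          exact IsAlgebraic.of_pow two_pos h1
        have hns' : ((cur a₂ a₄ a₆)⁄K).Nonsingular (⟨x, mem_algebraicClosure_iff.mpr hxL⟩ : K)
            (⟨y, mem_algebraicClosure_iff.mpr hyL⟩ : K) := by
          rw [← baseChange_nonsingular (f := κ) (W := cur a₂ a₄ a₆) κ.toRingHom.injective]
          exact h
        apply hP0 (.some _ _ hns' - Point.map κ' P)
        rw [map_sub, ← hιP, Point.map_some, sub_eq_iff_eq_add, ← hR]
        rfl
    exact hx _ rfl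
  have h0 : CH a₂ a₄ a₆ M P0 = 0 := by
    refine CH_of_transcendental hF _ _ ?_ _
    exact hx0.restrictScalars (algebraMap F L).injective
  rw [map_add, h0, zero_add, CH_map] at hsum
  have hinj : Function.Injective (Point.map (W' := cur a₂ a₄ a₆) ι) := Point.map_injective ι
  exact hinj (by rw [hsum, _root_.map_zero])

end Fermat.Agent.Schoof
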