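import Fermat.Agent.Schoof.Univ

set_option autoImplicit false

/-!
# Manin's computation: the height of `frob G - G` is the number of points
-/

open Polynomial WeierstrassCurve WeierstrassCurve.Affine WeierstrassCurve.Affine.Point

namespace Fermat.Agent.Schoof

section count

variable {F : Type*} [Field F] [Fintype F] [DecidableEq F] (a₂ a₄ a₆ : F)

/-- The number of points in terms of the quadratic character. -/
lemma card_points (hF : ringChar F ≠ 2) [(cur a₂ a₄ a₆).IsElliptic] :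
    (Nat.card (cur a₂ a₄ a₆).toAffine.Point : ℤ) =
      1 + ∑ x : F, (quadraticChar F ((cub a₂ a₄ a₆).eval x) + 1) := by
  rw [Nat.card_congr (pointEquiv (cur a₂ a₄ a₆).toAffine)]
  have e1 : Nat.card (WithZero {xy : F × F // (cur a₂ a₄ a₆).toAffine.Equation xy.fst xy.snd}) =
      Nat.card {xy : F × F // (cur a₂ a₄ a₆).toAffine.Equation xy.fst xy.snd} + 1 :=
    Finite.card_option
  rw [e1]
  have e2 : {xy : F × F // (cur a₂ a₄ a₆).toAffine.Equation xy.fst xy.snd} ≃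
      Σ x : F, {y : F // y ^ 2 = (cub a₂ a₄ a₆).eval x} :=
    { toFun := fun p => ⟨p.1.1, p.1.2, by
        have := p.2
        rw [equation_iff] at this
        simpa [cur, cub] using this⟩
      invFun := fun p => ⟨(p.1, p.2.1), by
        have := p.2.2
        rw [equation_iff]
        simpa [cur, cub] using this⟩
      left_inv := fun p => rfl
      right_inv := fun p => rfl }
  rw [Nat.card_congr e2, Nat.card_sigma]
  push_cast
  rw [add_comm]
  congr 1
  refine Finset.sum_congr rfl fun x _ => ?_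
  rw [← quadraticChar_card_sqrts hF]
  rw [Nat.card_eq_fintype_card]
  simp only [Set.toFinset_card]
  exact congrArg Nat.cast (Fintype.card_congr (Equiv.refl _))

end count

section poly

variable {F : Type*} [Field F] [Fintype F] [DecidableEq F] {a₂ a₄ a₆ : F}

lemma prod_X_sub_C_univ : ∏ a : F, (X - C a) = (X ^ Fintype.card F - X : F[X]) := by
  have h := FiniteField.roots_X_pow_card_sub_X F
  have hm : (X ^ Fintype.card F - X : F[X]).Monic := by
    rw [Monic, leadingCoeff, FiniteField.X_pow_card_sub_X_natDegree_eq F Fintype.one_lt_card]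
    simp [coeff_X, (Fintype.one_lt_card (α := F)).ne]
  have h2 := prod_multiset_X_sub_C_of_monic_of_roots_card_eq hm (by
    rw [h, FiniteField.X_pow_card_sub_X_natDegree_eq F Fintype.one_lt_card]
    rfl)
  rw [← h2, h]
  rfl

/-- the numerator -/
noncomputable def manN (a₂ a₄ a₆ : F) : F[X] :=
  cub a₂ a₄ a₆ * (cub a₂ a₄ a₆ ^ (Fintype.card F / 2) + 1) ^ 2 -
    (X ^ Fintype.card F + X + C a₂) * (X ^ Fintype.card F - X) ^ 2

lemma manN_eq {m : ℕ} (hm : Fintype.card F = 2 * m + 1) :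
    manN a₂ a₄ a₆ = X ^ (2 * Fintype.card F + 1) + (X ^ (Fintype.card F + 2) +
      C (2 * a₂) * X ^ (Fintype.card F + 1) + C a₄ * X ^ Fintype.card F +
      C 2 * cub a₂ a₄ a₆ ^ (m + 1) + C a₄ * X + C (2 * a₆)) := by
  have e1 : Fintype.card F / 2 = m := by omega
  have e2 : cub a₂ a₄ a₆ * (cub a₂ a₄ a₆ ^ m) ^ 2 = expand F (Fintype.card F) (cub a₂ a₄ a₆) := by
    rw [FiniteField.expand_card, hm]
    ring
  have e3 : expand F (Fintype.card F) (cub a₂ a₄ a₆) = X ^ (Fintype.card F * 3) +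
      C a₂ * X ^ (Fintype.card F * 2) + C a₄ * X ^ Fintype.card F + C a₆ := by
    simp [cub, pow_mul]
  have e4 : manN a₂ a₄ a₆ = cub a₂ a₄ a₆ * (cub a₂ a₄ a₆ ^ m) ^ 2 + 2 * cub a₂ a₄ a₆ ^ (m + 1)
      + cub a₂ a₄ a₆ - (X ^ Fintype.card F + X + C a₂) * (X ^ Fintype.card F - X) ^ 2 := by
    rw [manN, e1]
    ring
  rw [e4, e2, e3]
  have e5 : (C 2 : F[X]) = 2 := rfl
  have e6 : cub a₂ a₄ a₆ = X ^ 3 + C a₂ * X ^ 2 + C a₄ * X + C a₆ := rfl
  generalize hu : cub a₂ a₄ a₆ ^ (m + 1) = u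
  rw [C_mul, C_mul, e5, e6]
  ring

lemma three_le_card (hF : ringChar F ≠ 2) : ∃ m, 1 ≤ m ∧ Fintype.card F = 2 * m + 1 := by
  have h1 := FiniteField.odd_card_of_char_ne_two hF
  have h2 := Fintype.one_lt_card (α := F)
  exact ⟨Fintype.card F / 2, by omega, by omega⟩

lemma manN_natDegree_aux (hF : ringChar F ≠ 2) :
    ∃ R : F[X], manN a₂ a₄ a₆ = X ^ (2 * Fintype.card F + 1) + R ∧
      R.natDegree ≤ 2 * Fintype.card F := by
  obtain ⟨m, hm1, hm⟩ := three_le_card hF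
  refine ⟨_, manN_eq hm, ?_⟩
  have h1 : (C 2 * cub a₂ a₄ a₆ ^ (m + 1)).natDegree ≤ 2 * Fintype.card F := by
    refine (natDegree_C_mul_le _ _).trans ((natDegree_pow_le_of_le _ (cub_natDegree a₂ a₄ a₆).le).trans ?_)
    rw [hm]; omega
  have hmon : ∀ (c : F) (k : ℕ), k ≤ 2 * Fintype.card F → (C c * X ^ k : F[X]).natDegree ≤
      2 * Fintype.card F := fun c k hk => (natDegree_C_mul_X_pow_le c k).trans hk
  refine natDegree_add_le_of_degree_le (natDegree_add_le_of_degree_le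
    (natDegree_add_le_of_degree_le (natDegree_add_le_of_degree_le
    (natDegree_add_le_of_degree_le ?_ ?_) ?_) h1) ?_) ?_
  · rw [natDegree_X_pow]; omega
  · exact hmon _ _ (by omega)
  · exact hmon _ _ (by omega)
  · simpa using hmon a₄ 1 (by omega)
  · exact (natDegree_C _).le.trans (Nat.zero_le _)

lemma manN_natDegree (hF : ringChar F ≠ 2) :
    (manN a₂ a₄ a₆).natDegree = 2 * Fintype.card F + 1 := by
  obtain ⟨R, h1, h2⟩ := manN_natDegree_aux (a₂ := a₂) (a₄ := a₄) (a₆ := a₆) hF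
  rw [h1, natDegree_add_eq_left_of_natDegree_lt]
  · simp
  · rw [natDegree_X_pow]; omega

lemma manN_ne_zero (hF : ringChar F ≠ 2) : manN a₂ a₄ a₆ ≠ 0 := by
  intro h
  have := manN_natDegree (a₂ := a₂) (a₄ := a₄) (a₆ := a₆) hF
  rw [h] at this
  simp at this

/-- exponent of cancellation -/
noncomputable def ex (a₂ a₄ a₆ : F) (a : F) : ℕ :=
  (1 - quadraticChar F ((cub a₂ a₄ a₆).eval a)).toNat

lemma ex_cases (a : F) :
    ((cub a₂ a₄ a₆).eval a = 0 ∧ ex a₂ a₄ a₆ a = 1) ∨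
    ((cub a₂ a₄ a₆).eval a ≠ 0 ∧ quadraticChar F ((cub a₂ a₄ a₆).eval a) = 1 ∧
      ex a₂ a₄ a₆ a = 0) ∨
    ((cub a₂ a₄ a₆).eval a ≠ 0 ∧ quadraticChar F ((cub a₂ a₄ a₆).eval a) = -1 ∧
      ex a₂ a₄ a₆ a = 2) := by
  by_cases h : (cub a₂ a₄ a₆).eval a = 0
  · left
    refine ⟨h, ?_⟩
    rw [ex, h]
    simp
  · right
    rcases quadraticChar_dichotomy h with h1 | h1
    · left
      refine ⟨h, h1, ?_⟩
      rw [ex, h1]; rfl
    · right
      refine ⟨h, h1, ?_⟩
      rw [ex, h1]; rfl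

lemma ex_le (a : F) : ex a₂ a₄ a₆ a ≤ 2 := by
  rcases ex_cases (a₂ := a₂) (a₄ := a₄) (a₆ := a₆) a with h | h | h <;> omega

lemma ex_cast (a : F) : (ex a₂ a₄ a₆ a : ℤ) = 1 - quadraticChar F ((cub a₂ a₄ a₆).eval a) := by
  rcases ex_cases (a₂ := a₂) (a₄ := a₄) (a₆ := a₆) a with h | h | h
  · rw [h.2, h.1]; simp
  · rw [h.2.2, h.2.1]; simp
  · rw [h.2.2, h.2.1]; norm_num

/-- the common factor -/
noncomputable def manG (a₂ a₄ a₆ : F) : F[X] := ∏ a : F, (X - C a) ^ ex a₂ a₄ a₆ a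

lemma manG_monic : (manG a₂ a₄ a₆).Monic :=
  monic_prod_of_monic _ _ fun a _ => (monic_X_sub_C a).pow _

lemma manG_natDegree : (manG a₂ a₄ a₆).natDegree = ∑ a : F, ex a₂ a₄ a₆ a := by
  rw [manG, natDegree_prod_of_monic _ _ fun a _ => (monic_X_sub_C a).pow _]
  exact Finset.sum_congr rfl fun a _ => by simp

lemma pow_dvd_manN (hF : ringChar F ≠ 2) (a : F) :
    (X - C a) ^ ex a₂ a₄ a₆ a ∣ manN a₂ a₄ a₆ := by
  have hq : (X - C a) ∣ (X ^ Fintype.card F - X : F[X]) := by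
    rw [dvd_iff_isRoot, IsRoot.def]
    simp [FiniteField.pow_card]
  rcases ex_cases (a₂ := a₂) (a₄ := a₄) (a₆ := a₆) a with h | h | h
  · rw [h.2, pow_one, manN]
    refine dvd_sub (Dvd.dvd.mul_right ?_ _) (Dvd.dvd.mul_left (dvd_pow hq two_ne_zero) _)
    rw [dvd_iff_isRoot]
    exact h.1
  · rw [h.2.2, pow_zero]; exact one_dvd _
  · rw [h.2.2, manN]
    refine dvd_sub (Dvd.dvd.mul_left (pow_dvd_pow_of_dvd ?_ 2) _)
      (Dvd.dvd.mul_left (pow_dvd_pow_of_dvd hq 2) _)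
    rw [dvd_iff_isRoot, IsRoot.def]
    have := quadraticChar_eq_pow_of_char_ne_two' hF ((cub a₂ a₄ a₆).eval a)
    rw [h.2.1] at this
    simp only [eval_add, eval_pow, eval_one]
    rw [← this]
    simp

lemma manG_dvd_manN (hF : ringChar F ≠ 2) : manG a₂ a₄ a₆ ∣ manN a₂ a₄ a₆ := by
  refine Finset.prod_dvd_of_coprime ?_ fun a _ => pow_dvd_manN hF a
  intro a _ b _ hab
  exact (isCoprime_X_sub_C_of_isUnit_sub (sub_ne_zero.mpr hab).isUnit).pow

lemma manD_eq : (X ^ Fintype.card F - X : F[X]) ^ 2 =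
    manG a₂ a₄ a₆ * ∏ a : F, (X - C a) ^ (2 - ex a₂ a₄ a₆ a) := by
  rw [← prod_X_sub_C_univ, ← Finset.prod_pow, manG, ← Finset.prod_mul_distrib]
  refine Finset.prod_congr rfl fun a _ => ?_
  rw [← pow_add, Nat.add_sub_cancel' (ex_le a)]

lemma manN_not_dvd (hF : ringChar F ≠ 2)
    (sing : ∀ a : F, (cub a₂ a₄ a₆).eval a = 0 → (derivative (cub a₂ a₄ a₆)).eval a ≠ 0)
    (a : F) (ha : ex a₂ a₄ a₆ a ≠ 2) : ¬ (X - C a) ^ (ex a₂ a₄ a₆ a + 1) ∣ manN a₂ a₄ a₆ := by
  obtain ⟨m, hm1, hm⟩ := three_le_card hF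
  have hmm : Fintype.card F / 2 = m := by omega
  rcases ex_cases (a₂ := a₂) (a₄ := a₄) (a₆ := a₆) a with h | h | h
  · rw [h.2]
    rintro ⟨u, hu⟩
    have h1 : (derivative (manN a₂ a₄ a₆)).eval a = 0 := by
      rw [hu]
      simp [derivative_mul, derivative_pow]
    have h2 : (derivative (manN a₂ a₄ a₆)).eval a = (derivative (cub a₂ a₄ a₆)).eval a := by
      rw [manN, hmm]
      simp only [derivative_sub, derivative_mul, derivative_pow, eval_sub, eval_add, eval_mul,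
        eval_pow, h.1, derivative_add, derivative_one, eval_one, derivative_X, eval_X,
        FiniteField.pow_card, sub_self]
      have : m ≠ 0 := by omega
      simp [this]
    exact sing a h.1 (h2.symm.trans h1)
  · rw [h.2.2, zero_add, pow_one, dvd_iff_isRoot, IsRoot.def]
    have := quadraticChar_eq_pow_of_char_ne_two' hF ((cub a₂ a₄ a₆).eval a)
    rw [h.2.1] at this
    rw [manN]
    simp only [eval_sub, eval_add, eval_mul, eval_pow, eval_one, eval_X, FiniteField.pow_card,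
      sub_self, ← this]
    have h2 : (2 : F) ≠ 0 := Ring.two_ne_zero hF
    have h4 : ((1 : ℤ) : F) + 1 = 2 := by norm_num
    rw [h4]
    simp [h.1, h2]
  · exact absurd h.2.2 ha

/-- Reduced form of the `x`-coordinate of `frob G - G`. -/
lemma manin_poly (hF : ringChar F ≠ 2) [(cur a₂ a₄ a₆).IsElliptic]
    (sing : ∀ a : F, (cub a₂ a₄ a₆).eval a = 0 → (derivative (cub a₂ a₄ a₆)).eval a ≠ 0) :
    HasHt ![algebraMap F[X] (RatFunc F) (manN a₂ a₄ a₆) /
      algebraMap F[X] (RatFunc F) ((X ^ Fintype.card F - X) ^ 2), 1]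
      (Nat.card (cur a₂ a₄ a₆).toAffine.Point) := by
  obtain ⟨N', hN'⟩ := manG_dvd_manN (a₂ := a₂) (a₄ := a₄) (a₆ := a₆) hF
  set D' : F[X] := ∏ a : F, (X - C a) ^ (2 - ex a₂ a₄ a₆ a) with hD'
  have hD := manD_eq (a₂ := a₂) (a₄ := a₄) (a₆ := a₆)
  rw [← hD'] at hD
  have hG0 : manG a₂ a₄ a₆ ≠ 0 := manG_monic.ne_zero
  have hN0 : N' ≠ 0 := by
    rintro rfl
    rw [mul_zero] at hN'
    exact manN_ne_zero hF hN'
  have hD'm : D'.Monic := monic_prod_of_monic _ _ fun a _ => (monic_X_sub_C a).pow _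
  have hdN : N'.natDegree = 2 * Fintype.card F + 1 - ∑ a : F, ex a₂ a₄ a₆ a := by
    have := congrArg natDegree hN'
    rw [manN_natDegree hF, natDegree_mul hG0 hN0, manG_natDegree] at this
    omega
  have hdD : D'.natDegree ≤ N'.natDegree := by
    have := congrArg natDegree hD
    rw [natDegree_pow, FiniteField.X_pow_card_sub_X_natDegree_eq F Fintype.one_lt_card,
      natDegree_mul hG0 hD'm.ne_zero, manG_natDegree] at this
    omega
  have hsum : ∑ a : F, ex a₂ a₄ a₆ a ≤ 2 * Fintype.card F := by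
    calc ∑ a : F, ex a₂ a₄ a₆ a ≤ ∑ a : F, 2 := Finset.sum_le_sum fun a _ => ex_le a
      _ = 2 * Fintype.card F := by simp [mul_comm]
  have hcard : Nat.card (cur a₂ a₄ a₆).toAffine.Point = N'.natDegree := by
    have h1 := card_points a₂ a₄ a₆ hF
    have h2 : (∑ a : F, (ex a₂ a₄ a₆ a : ℤ)) =
      Fintype.card F - ∑ a : F, quadraticChar F ((cub a₂ a₄ a₆).eval a) := by
      rw [Finset.sum_congr rfl fun a _ => ex_cast a, Finset.sum_sub_distrib]
      simp
    rw [Finset.sum_add_distrib] at h1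
    simp only [Finset.sum_const, Finset.card_univ, smul_eq_mul, mul_one, nsmul_eq_mul] at h1
    rw [hdN]
    zify [show ∑ a : F, ex a₂ a₄ a₆ a ≤ 2 * Fintype.card F + 1 by omega]
    rw [h1, h2]
    ring
  have hcop : IsCoprime N' D' := by
    rw [hD']
    refine IsCoprime.prod_right fun a _ => ?_
    by_cases ha : ex a₂ a₄ a₆ a = 2
    · rw [ha]
      simpa using isCoprime_one_right
    · refine IsCoprime.pow_right ?_
      rw [isCoprime_comm]
      refine (Irreducible.coprime_iff_not_dvd (irreducible_X_sub_C a)).mpr ?_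
      rintro ⟨u, hu⟩
      apply manN_not_dvd hF sing a ha
      rw [hN', pow_succ]
      refine mul_dvd_mul ?_ ⟨u, hu⟩
      exact Finset.dvd_prod_of_mem (fun a => (X - C a) ^ ex a₂ a₄ a₆ a) (Finset.mem_univ a)
  have hfrac : algebraMap F[X] (RatFunc F) (manN a₂ a₄ a₆) /
      algebraMap F[X] (RatFunc F) ((X ^ Fintype.card F - X) ^ 2) =
      algebraMap F[X] (RatFunc F) N' / algebraMap F[X] (RatFunc F) D' := by
    rw [hD, hN', _root_.map_mul, _root_.map_mul, mul_div_mul_left]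
    simpa using hG0
  rw [hfrac, hcard]
  refine hasHt_of_coprime hcop hD'm.ne_zero le_rfl hdD (Or.inl ?_)
  simpa using hN0

end poly

end Fermat.Agent.Schoof
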