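import Mathlib

set_option autoImplicit false

/-!
# The addition-and-subtraction map computes `(x(P+Q), x(P-Q))`
-/

open WeierstrassCurve WeierstrassCurve.Affine WeierstrassCurve.Affine.Point MvPolynomial

namespace Fermat.Agent.Schoof

lemma addSubMap_eval {F : Type*} [Field F] (W : WeierstrassCurve F) (v : Fin 3 → F) :
    (fun i => (addSubMap W i).eval v) =
      ![v 0 ^ 2 - W.b₄ * v 0 * v 2 - W.b₆ * v 1 * v 2 - W.b₈ * v 2 ^ 2,
        2 * v 1 * v 0 + W.b₂ * v 0 * v 2 + W.b₄ * v 1 * v 2 + W.b₆ * v 2 ^ 2,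
        v 1 ^ 2 - 4 * v 0 * v 2] := by
  funext i
  fin_cases i <;> simp [addSubMap]

variable {F : Type*} [Field F] [DecidableEq F] (W : WeierstrassCurve F)

/-- `x(P+Q), x(P-Q)` in terms of `x(P), x(Q)` for points with distinct `x`-coordinates. -/
lemma addSub_formula {x₁ x₂ y₁ y₂ : F} (h₁ : W.toAffine.Equation x₁ y₁)
    (h₂ : W.toAffine.Equation x₂ y₂) (hx : x₁ ≠ x₂) :
    let X := W.toAffine.addX x₁ x₂ (W.toAffine.slope x₁ x₂ y₁ y₂)
    let X' := W.toAffine.addX x₁ x₂ (W.toAffine.slope x₁ x₂ y₁ (W.toAffine.negY x₂ y₂))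
    (x₁ - x₂) ^ 2 * (X * X') = (x₁ * x₂) ^ 2 - W.b₄ * (x₁ * x₂) - W.b₆ * (x₁ + x₂) - W.b₈ ∧
    (x₁ - x₂) ^ 2 * (X + X') = 2 * (x₁ + x₂) * (x₁ * x₂) + W.b₂ * (x₁ * x₂)
      + W.b₄ * (x₁ + x₂) + W.b₆ := by
  intro X X'
  have hd : x₁ - x₂ ≠ 0 := sub_ne_zero.mpr hx
  rw [equation_iff] at h₁ h₂
  have hX : (x₁ - x₂) ^ 2 * X = (y₁ - y₂) ^ 2 + W.a₁ * (y₁ - y₂) * (x₁ - x₂)
      - (W.a₂ + x₁ + x₂) * (x₁ - x₂) ^ 2 := by
    simp only [X, slope_of_X_ne hx, addX]
    field_simp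
    ring
  have hX' : (x₁ - x₂) ^ 2 * X' = (y₁ + y₂ + W.a₁ * x₂ + W.a₃) ^ 2
      + W.a₁ * (y₁ + y₂ + W.a₁ * x₂ + W.a₃) * (x₁ - x₂)
      - (W.a₂ + x₁ + x₂) * (x₁ - x₂) ^ 2 := by
    simp only [X', slope_of_X_ne hx, addX, negY]
    field_simp
    ring
  constructor
  · have h4 : (x₁ - x₂) ^ 2 * ((x₁ - x₂) ^ 2 * (X * X')) =
        (x₁ - x₂) ^ 2 * ((x₁ * x₂) ^ 2 - W.b₄ * (x₁ * x₂) - W.b₆ * (x₁ + x₂) - W.b₈) := by
      have : (x₁ - x₂) ^ 2 * ((x₁ - x₂) ^ 2 * (X * X')) =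
        ((x₁ - x₂) ^ 2 * X) * ((x₁ - x₂) ^ 2 * X') := by ring
      rw [this, hX, hX', b₄, b₆, b₈]
      linear_combination
        ((y₁ ^ 2 + W.a₁ * x₁ * y₁ + W.a₃ * y₁) - (y₂ ^ 2 + W.a₁ * x₂ * y₂ + W.a₃ * y₂)
          + (x₁ ^ 3 + W.a₂ * x₁ ^ 2 + W.a₄ * x₁ + W.a₆)
          - (x₂ ^ 3 + W.a₂ * x₂ ^ 2 + W.a₄ * x₂ + W.a₆)
          + W.a₁ * (x₁ - x₂) * (W.a₁ * x₂ + W.a₃)
          - 2 * (W.a₂ + x₁ + x₂) * (x₁ - x₂) ^ 2) * h₁
        + (-((y₁ ^ 2 + W.a₁ * x₁ * y₁ + W.a₃ * y₁) - (y₂ ^ 2 + W.a₁ * x₂ * y₂ + W.a₃ * y₂)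
          + (x₁ ^ 3 + W.a₂ * x₁ ^ 2 + W.a₄ * x₁ + W.a₆)
          - (x₂ ^ 3 + W.a₂ * x₂ ^ 2 + W.a₄ * x₂ + W.a₆))
          - W.a₁ * (x₁ - x₂) * (W.a₁ * x₁ + W.a₃)
          - 2 * (W.a₂ + x₁ + x₂) * (x₁ - x₂) ^ 2) * h₂
    exact mul_left_cancel₀ (pow_ne_zero 2 hd) h4
  · rw [mul_add, hX, hX', b₂, b₄, b₆]
    linear_combination 2 * h₁ + 2 * h₂

/-- Duplication formula. -/
lemma dbl_formula {x y : F} (h : W.toAffine.Equation x y)
    (hy : y ≠ W.toAffine.negY x y) :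
    (4 * x ^ 3 + W.b₂ * x ^ 2 + 2 * W.b₄ * x + W.b₆) *
      W.toAffine.addX x x (W.toAffine.slope x x y y) =
    x ^ 4 - W.b₄ * x ^ 2 - 2 * W.b₆ * x - W.b₈ := by
  rw [equation_iff] at h
  have hz : 2 * y + W.a₁ * x + W.a₃ ≠ 0 := by
    intro h0
    apply hy
    rw [negY]
    linear_combination h0
  have hz' : y - W.toAffine.negY x y = 2 * y + W.a₁ * x + W.a₃ := by rw [negY]; ring
  have e1 : 4 * x ^ 3 + W.b₂ * x ^ 2 + 2 * W.b₄ * x + W.b₆ = (2 * y + W.a₁ * x + W.a₃) ^ 2 := by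
    rw [b₂, b₄, b₆]
    linear_combination (-4) * h
  rw [e1, slope_of_Y_ne rfl hy, hz', addX, b₄, b₆, b₈]
  field_simp
  linear_combination (-(W.a₁ ^ 2 + 4 * W.a₂ + 8 * x)) * h

/-- The coordinates of `(P+Q, P-Q)` are given by the addition-subtraction map. -/
theorem exists_sym2x_eq_addSubMap [W.IsElliptic] (P Q : W.toAffine.Point) :
    ∃ c : F, c ≠ 0 ∧
      (fun i => (addSubMap W i).eval (P.sym2x Q)) = c • ((P + Q).sym2x (P - Q)) := by
  -- the case `P = ± Q`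
  have key : ∀ P : W.toAffine.Point, ∃ c : F, c ≠ 0 ∧
      (fun i => (addSubMap W i).eval (P.sym2x P)) = c • ((P + P).sym2x 0) := by
    intro P
    have hne := addSubMap_ne_zero W (sym2x_ne_zero P P)
    rw [addSubMap_eval] at hne ⊢
    match P with
    | 0 => exact ⟨1, one_ne_zero, by simp⟩
    | .some x y h =>
      by_cases hy : y = W.toAffine.negY x y
      · have hz : 4 * x ^ 3 + W.b₂ * x ^ 2 + 2 * W.b₄ * x + W.b₆ = 0 := by
          have h' := h.1
          rw [equation_iff] at h'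
          rw [negY] at hy
          have e1 : 4 * x ^ 3 + W.b₂ * x ^ 2 + 2 * W.b₄ * x + W.b₆ =
              (2 * y + W.a₁ * x + W.a₃) ^ 2 := by
            rw [b₂, b₄, b₆]
            linear_combination (-4) * h'
          rw [e1]
          have : 2 * y + W.a₁ * x + W.a₃ = 0 := by linear_combination hy
          rw [this]; ring
        rw [add_self_of_Y_eq hy]
        simp only [sym2x_some_some, sym2x_zero_zero, Matrix.cons_val_zero, Matrix.cons_val_one,
          Matrix.cons_val] at hne ⊢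
        have e2 : 2 * (x + x) * (x * x) + W.b₂ * (x * x) * 1 + W.b₄ * (x + x) * 1 + W.b₆ * 1 ^ 2
            = 0 := by linear_combination hz
        have e3 : (x + x) ^ 2 - 4 * (x * x) * 1 = 0 := by ring
        rw [e2, e3] at hne ⊢
        refine ⟨(x * x) ^ 2 - W.b₄ * (x * x) * 1 - W.b₆ * (x + x) * 1 - W.b₈ * 1 ^ 2, ?_, ?_⟩
        · intro h0
          apply hne
          rw [h0]
          simp
        · ext i
          fin_cases i <;> simp
      · have h2 := dbl_formula W h.1 hy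
        rw [add_self_of_Y_ne hy]
        simp only [sym2x_some_some, sym2x_some_zero, Matrix.cons_val_zero, Matrix.cons_val_one,
          Matrix.cons_val] at hne ⊢
        revert h2
        generalize W.toAffine.addX x x (W.toAffine.slope x x y y) = X2
        intro h2
        refine ⟨4 * x ^ 3 + W.b₂ * x ^ 2 + 2 * W.b₄ * x + W.b₆, ?_, ?_⟩
        · intro h0
          have h' := h.1
          rw [equation_iff] at h'
          apply hy
          rw [negY]
          have e1 : 4 * x ^ 3 + W.b₂ * x ^ 2 + 2 * W.b₄ * x + W.b₆ =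
              (2 * y + W.a₁ * x + W.a₃) ^ 2 := by
            rw [b₂, b₄, b₆]
            linear_combination (-4) * h'
          rw [e1] at h0
          have := pow_eq_zero_iff (two_ne_zero) |>.mp h0
          linear_combination this
        · ext i
          fin_cases i
          · simp
            linear_combination -h2
          · simp
            ring
          · simp
            ring
  match P, Q with
  | 0, Q =>
    refine ⟨1, one_ne_zero, ?_⟩
    rw [zero_add, zero_sub, sym2x_neg_right, one_smul, addSubMap_eval]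
    match Q with
    | 0 => simp
    | .some x y h =>
      simp
      constructor <;> ring
  | P, 0 =>
    refine ⟨1, one_ne_zero, ?_⟩
    rw [add_zero, sub_zero, one_smul, addSubMap_eval]
    match P with
    | 0 => simp
    | .some x y h =>
      simp
      constructor <;> ring
  | .some x₁ y₁ h₁, .some x₂ y₂ h₂ =>
    by_cases hx : x₁ = x₂
    · rcases X_eq_iff.mp hx with h | h
      · rw [h, sub_self]
        exact key _
      · obtain ⟨c, hc, h'⟩ := key (some x₂ y₂ h₂)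
        refine ⟨c, hc, ?_⟩
        rw [h, neg_add_cancel, sym2x_neg_left, h', sym2x_comm, ← sym2x_neg_right (0 : W.toAffine.Point)]
        congr 3
        abel
    · obtain ⟨f1, f2⟩ := addSub_formula W h₁.1 h₂.1 hx
      rw [add_of_X_ne hx, sub_eq_add_neg, neg_some, add_of_X_ne hx]
      rw [sym2x_some_some, sym2x_some_some]
      revert f1 f2
      generalize W.toAffine.addX x₁ x₂ (W.toAffine.slope x₁ x₂ y₁ y₂) = X
      generalize W.toAffine.addX x₁ x₂ (W.toAffine.slope x₁ x₂ y₁ (W.toAffine.negY x₂ y₂)) = X'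
      intro f1 f2
      refine ⟨(x₁ - x₂) ^ 2, pow_ne_zero 2 (sub_ne_zero.mpr hx), ?_⟩
      rw [addSubMap_eval]
      ext i
      fin_cases i
      · simp
        linear_combination -f1
      · simp
        linear_combination -f2
      · simp
        ring

end Fermat.Agent.Schoof
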