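import Fermat.Agent.Schoof.Manin

set_option autoImplicit false

/-!
# The Cayley-Hamilton relation for Frobenius on an elliptic curve over a finite field
-/

open Polynomial WeierstrassCurve WeierstrassCurve.Affine WeierstrassCurve.Affine.Point

namespace Fermat.Agent.Schoof

section

variable {F : Type*} [Field F] [Fintype F] {a₂ a₄ a₆ : F} [(cur a₂ a₄ a₆).IsElliptic]

local notation "KK" => FF a₂ a₄ a₆
local notation "A" => algebraMap (RatFunc F) (FF a₂ a₄ a₆)
local notation "GG" => G a₂ a₄ a₆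
local notation "π" => frob a₂ a₄ a₆ (FF a₂ a₄ a₆)

lemma sing (a : F) (h0 : (cub a₂ a₄ a₆).eval a = 0) :
    (derivative (cub a₂ a₄ a₆)).eval a ≠ 0 := by
  intro h1
  have h : (cur a₂ a₄ a₆).toAffine.Equation a 0 := by
    rw [equation_iff]
    simp [cur, cub] at h0 ⊢
    linear_combination -h0
  have h2 := (equation_iff_nonsingular.mp h)
  rw [nonsingular_iff] at h2
  rcases h2.2 with h3 | h3
  · apply h3
    simp [cur, cub] at h1 ⊢
    linear_combination -h1
  · apply h3
    simp [cur]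

lemma X_pow_ne_X : (RatFunc.X : RatFunc F) ^ Fintype.card F ≠ RatFunc.X := by
  intro h
  rw [← RatFunc.algebraMap_X, ← map_pow] at h
  have := RatFunc.algebraMap_injective F h
  have h2 := congrArg natDegree this
  rw [natDegree_X_pow, natDegree_X] at h2
  exact (Fintype.one_lt_card (α := F)).ne' h2

lemma omega_pow (hF : ringChar F ≠ 2) :
    (QuadraticAlgebra.omega : KK) ^ Fintype.card F =
      A (cubK a₂ a₄ a₆ ^ (Fintype.card F / 2)) * QuadraticAlgebra.omega := by
  have h1 := FiniteField.odd_card_of_char_ne_two hF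
  have : Fintype.card F = 2 * (Fintype.card F / 2) + 1 := by omega
  rw [this, pow_succ, pow_mul, omega_sq, ← map_pow]
  have h3 : (2 * (Fintype.card F / 2) + 1) / 2 = Fintype.card F / 2 := by omega
  rw [h3]

/-- The `x`-coordinate of `frob G - G`. -/
lemma xco_frob_sub [DecidableEq F] (hF : ringChar F ≠ 2) :
    xco (π GG - GG) = ![algebraMap F[X] (RatFunc F) (manN a₂ a₄ a₆) /
      algebraMap F[X] (RatFunc F) ((X ^ Fintype.card F - X) ^ 2), 1] := by
  have hX : (FiniteField.frobeniusAlgHom F (FF a₂ a₄ a₆)) (A RatFunc.X) ≠ A RatFunc.X := by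
    change (A RatFunc.X) ^ Fintype.card F ≠ A RatFunc.X
    rw [← map_pow]
    exact fun h => X_pow_ne_X ((A).injective h)
  have hd : (RatFunc.X : RatFunc F) ^ Fintype.card F - RatFunc.X ≠ 0 := sub_ne_zero.mpr X_pow_ne_X
  have h1 : π GG - GG = π GG + (-GG) := sub_eq_add_neg _ _
  rw [h1, G, frob, Point.map_some, neg_some, add_of_X_ne hX]
  rw [xco]
  congr 1
  rw [slope_of_X_ne hX, addX, negY]
  have e1 : (FiniteField.frobeniusAlgHom F (FF a₂ a₄ a₆)) QuadraticAlgebra.omega =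
      A (cubK a₂ a₄ a₆ ^ (Fintype.card F / 2)) * QuadraticAlgebra.omega := omega_pow hF
  have e2 : (FiniteField.frobeniusAlgHom F (FF a₂ a₄ a₆)) (A RatFunc.X) =
      A (RatFunc.X ^ Fintype.card F) := (map_pow (A) _ _).symm
  have ea1 : ((cur a₂ a₄ a₆)⁄(FF a₂ a₄ a₆)).toAffine.a₁ = 0 := by simp [cur]
  have ea3 : ((cur a₂ a₄ a₆)⁄(FF a₂ a₄ a₆)).toAffine.a₃ = 0 := by simp [cur]
  have ea2 : ((cur a₂ a₄ a₆)⁄(FF a₂ a₄ a₆)).toAffine.a₂ = A (algebraMap F (RatFunc F) a₂) := by
    rw [← IsScalarTower.algebraMap_apply]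
    simp [cur]
  rw [e1, e2, ea1, ea3, ea2]
  have e3 : (A (cubK a₂ a₄ a₆ ^ (Fintype.card F / 2)) * QuadraticAlgebra.omega -
      (-QuadraticAlgebra.omega - 0 * A RatFunc.X - 0)) /
      (A (RatFunc.X ^ Fintype.card F) - A RatFunc.X) =
      A ((cubK a₂ a₄ a₆ ^ (Fintype.card F / 2) + 1) / (RatFunc.X ^ Fintype.card F - RatFunc.X)) *
        QuadraticAlgebra.omega := by
    rw [map_div₀, map_sub, map_add, _root_.map_one]
    ring
  rw [e3]
  have e4 : ∀ z : RatFunc F, (A z * QuadraticAlgebra.omega) ^ 2 +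
      0 * (A z * QuadraticAlgebra.omega) -
      A (algebraMap F (RatFunc F) a₂) - A (RatFunc.X ^ Fintype.card F) - A RatFunc.X =
      A (z ^ 2 * cubK a₂ a₄ a₆ - algebraMap F (RatFunc F) a₂ -
      RatFunc.X ^ Fintype.card F - RatFunc.X) := by
    intro z
    rw [mul_pow, omega_sq, map_sub, map_sub, map_sub, _root_.map_mul, map_pow (A) z 2]
    ring
  rw [e4]
  simp only [QuadraticAlgebra.algebraMap_re]
  rw [manN]
  simp only [map_sub, map_add, _root_.map_mul, map_pow, RatFunc.algebraMap_X, _root_.map_one,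
    RatFunc.algebraMap_C, RatFunc.algebraMap_eq_C]
  generalize hu : (RatFunc.X : RatFunc F) ^ Fintype.card F - RatFunc.X = u at hd ⊢
  generalize hq : (RatFunc.X : RatFunc F) ^ Fintype.card F = v at hu ⊢
  rw [div_pow, div_mul_eq_mul_div, eq_div_iff (pow_ne_zero 2 hd), sub_mul, sub_mul, sub_mul,
    div_mul_cancel₀ _ (pow_ne_zero 2 hd)]
  ring

/-- Manin: the height of `frob G - G` is the number of rational points. -/
theorem ht_frob_sub (hF : ringChar F ≠ 2) :
    ht (π GG - GG) = Nat.card (cur a₂ a₄ a₆).toAffine.Point := by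
  classical
  have h := hasHt_xco (π GG - GG)
  rw [xco_frob_sub hF] at h
  exact h.unique (manin_poly hF sing)

lemma ht_frob_add (hF : ringChar F ≠ 2) :
    ht (π GG + GG) + Nat.card (cur a₂ a₄ a₆).toAffine.Point = 2 * (Fintype.card F + 1) := by
  have h2 : (2 : F) ≠ 0 := Ring.two_ne_zero hF
  have := ht_add_ht_sub h2 (frob_mem_Odd (G_mem a₂ a₄ a₆)) (G_mem a₂ a₄ a₆)
  rw [ht_frob_sub hF, ht_frob h2 (G_mem a₂ a₄ a₆), ht_G] at this
  rw [this]; ring

lemma card_points_le (hF : ringChar F ≠ 2) :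
    Nat.card (cur a₂ a₄ a₆).toAffine.Point ≤ 2 * Fintype.card F + 1 := by
  classical
  have h1 := card_points a₂ a₄ a₆ hF
  have h2 : ∑ x : F, (quadraticChar F ((cub a₂ a₄ a₆).eval x) + 1) ≤ ∑ x : F, (2 : ℤ) := by
    refine Finset.sum_le_sum fun x _ => ?_
    by_cases h : (cub a₂ a₄ a₆).eval x = 0
    · rw [h]; simp
    · rcases quadraticChar_dichotomy h with h1 | h1 <;> rw [h1] <;> norm_num
  simp only [Finset.sum_const, Finset.card_univ, nsmul_eq_mul] at h2
  zify
  linarith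

/-- The degree is multiplicative: `deg(1 - π²) = deg(1 - π) deg (1 + π)`. -/
theorem ht_frob_sq_sub (hF : ringChar F ≠ 2) :
    ht (π (π GG) - GG) = ht (π GG - GG) * ht (π GG + GG) := by
  classical
  have h2 : (2 : F) ≠ 0 := Ring.two_ne_zero hF
  have hG := G_mem a₂ a₄ a₆
  have hα : π GG + GG ∈ Odd a₂ a₄ a₆ := (Odd a₂ a₄ a₆).add_mem (frob_mem_Odd hG) hG
  have hβ : π GG - GG ∈ Odd a₂ a₄ a₆ := (Odd a₂ a₄ a₆).sub_mem (frob_mem_Odd hG) hG
  have hpos : ht (π GG + GG) ≠ 0 := by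
    have h1 := ht_frob_add (a₂ := a₂) (a₄ := a₄) (a₆ := a₆) hF
    have h3 := card_points_le (a₂ := a₂) (a₄ := a₄) (a₆ := a₆) hF
    omega
  have hsq : π (π GG) - GG = π (π GG + GG) - (π GG + GG) := by
    rw [map_add]; abel
  rw [hsq]
  have hxα := xco_eq h2 hα
  have hhα := hasHt_xco (π GG + GG)
  revert hα hpos hxα hhα
  generalize π GG + GG = α
  intro hα hpos hxα hhα
  match α, hα, hpos, hxα, hhα with
  | 0, hα, hpos, hxα, hhα => exact absurd rfl hpos
  | .some x y hxy, hα, hpos, hxα, hhα =>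
    have ex : x = A x.re := (congrFun hxα 0).symm
    generalize hu : x.re = u at ex
    have hhu : HasHt ![u, 1] (ht (Point.some x y hxy)) := by rw [← hu]; exact hhα
    have htr : Transcendental F u := by
      refine RatFunc.transcendental_of_ne_C u ?_
      rintro ⟨c, hc⟩
      apply hpos
      rw [ht, hu, hc]
      simp
    subst ex
    have htr' : Transcendental F (A u) := by
      rwa [transcendental_algebraMap_iff (algebraMap (RatFunc F) (FF a₂ a₄ a₆)).injective]
    obtain ⟨θ, hθ, hθ'⟩ := exists_hom_point (A u) y htr' hxy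
    have hkey : π (Point.some (A u) y hxy) - Point.some (A u) y hxy =
        Point.map θ (π GG - GG) := by
      rw [map_sub, ← frob_map, hθ]
    have hsub : ∀ r : RatFunc F, subst (A u) htr' r = A (subst u htr r) := by
      intro r
      have : subst (A u) htr' =
          (IsScalarTower.toAlgHom F (RatFunc F) (FF a₂ a₄ a₆)).comp (subst u htr) := by
        apply ratFunc_algHom_ext
        simp
      rw [this]; rfl
    have hres : Point.map θ (π GG - GG) ∈ Odd a₂ a₄ a₆ := by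
      rw [← hkey]
      exact (Odd a₂ a₄ a₆).sub_mem (frob_mem_Odd hα) hα
    have hhβ := hasHt_xco (π GG - GG)
    have hhres := hasHt_xco (Point.map θ (π GG - GG))
    have hxβ := xco_eq h2 hβ
    have hxres := xco_eq h2 hres
    rw [hkey]
    have hxc := xco_frob_sub (a₂ := a₂) (a₄ := a₄) (a₆ := a₆) hF
    revert hβ hres hhβ hhres hxβ hxres hxc
    generalize π GG - GG = β
    intro hβ hres hhβ hhres hxβ hxres hxc
    match β, hβ, hres, hhβ, hhres, hxβ, hxres, hxc with
    | 0, hβ, hres, hhβ, hhres, hxβ, hxres, hxc =>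
      exfalso
      have := congrFun hxc 1
      simp [xco] at this
    | .some x' y' hxy', hβ, hres, hhβ, hhres, hxβ, hxres, hxc =>
      have ex' : x' = A x'.re := (congrFun hxβ 0).symm
      have e1 : xco (Point.map θ (Point.some x' y' hxy')) = ![subst u htr x'.re, 1] := by
        funext i
        apply (algebraMap (RatFunc F) (FF a₂ a₄ a₆)).injective
        rw [congrFun hxres i, Point.map_some, xRep_some]
        fin_cases i
        · simp only [Fin.zero_eta, Matrix.cons_val_zero]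
          rw [ex', hθ', hsub]
          simp
        · simp
      rw [e1] at hhres
      exact hhres.unique (HasHt.comp hhβ (subst u htr) (by simpa using hhu))

/-- A point of height zero is `2`-torsion. -/
lemma two_smul_eq_zero_of_ht (hF : ringChar F ≠ 2)
    {P : ((cur a₂ a₄ a₆)⁄(FF a₂ a₄ a₆)).Point} (hP : P ∈ Odd a₂ a₄ a₆) (h0 : ht P = 0) :
    P + P = 0 := by
  have h2 : (2 : F) ≠ 0 := Ring.two_ne_zero hF
  have h2' : (2 : RatFunc F) ≠ 0 := by
    intro h0
    apply h2
    apply (algebraMap F (RatFunc F)).injective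
    rw [map_ofNat, h0, _root_.map_zero]
  have hx := xco_eq h2 hP
  match P, hP, h0, hx with
  | 0, hP, h0, hx => simp
  | .some x y h, hP, h0, hx =>
    have ex : x = A x.re := (congrFun hx 0).symm
    rw [ht] at h0
    have h0' : x.re.num.natDegree = 0 ∧ x.re.denom.natDegree = 0 := by omega
    obtain ⟨c, hc⟩ := (RatFunc.eq_C_iff x.re).mpr h0'
    have hy := eq_of_nonsing a₂ a₄ a₆ h
    have ey : y = A y.im * QuadraticAlgebra.omega := by
      rw [mem_Odd, Point.map_some, neg_some, some.injEq] at hP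
      have h3 := congrArg QuadraticAlgebra.re hP.2
      rw [conj_re, negY] at h3
      have h4 : y.re = 0 := by
        have e1 : ((cur a₂ a₄ a₆)⁄(FF a₂ a₄ a₆)).toAffine.a₁ = 0 := by simp [cur]
        have e3 : ((cur a₂ a₄ a₆)⁄(FF a₂ a₄ a₆)).toAffine.a₃ = 0 := by simp [cur]
        rw [e1, e3] at h3
        simp only [zero_mul, sub_zero, QuadraticAlgebra.re_neg] at h3
        have : (2 : RatFunc F) * y.re = 0 := by linear_combination h3
        exact (mul_eq_zero.mp this).resolve_left h2'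
      ext
      · simp [h4]
      · simp
    have hy0 : y.im = 0 := by
      have h5 : A (y.im ^ 2 * cubK a₂ a₄ a₆) =
          A (algebraMap F (RatFunc F) ((cub a₂ a₄ a₆).eval c)) := by
        rw [_root_.map_mul, map_pow, ← omega_sq, ← mul_pow, ← ey, hy, ex, hc,
          ← RatFunc.algebraMap_eq_C, aeval_algebraMap_apply, aeval_algebraMap_apply]
        simp
      exact sq_mul_cubK a₂ a₄ a₆ ((algebraMap (RatFunc F) (FF a₂ a₄ a₆)).injective h5)
    have hy1 : y = 0 := by rw [ey, hy0]; simp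
    subst hy1
    apply add_self_of_Y_eq
    rw [negY]
    simp [cur]

/-- The Cayley-Hamilton relation at the generic point. -/
theorem cayley_generic (hF : ringChar F ≠ 2) :
    (2 : ℤ) • (π (π GG) - (((Fintype.card F : ℕ) : ℤ) + 1 - Nat.card (cur a₂ a₄ a₆).toAffine.Point) • π GG
      + ((Fintype.card F : ℕ) : ℤ) • GG) = 0 := by
  have h2 : (2 : F) ≠ 0 := Ring.two_ne_zero hF
  have hG := G_mem a₂ a₄ a₆
  have hG1 := frob_mem_Odd hG
  have hG2 := frob_mem_Odd hG1
  set q : ℤ := ((Fintype.card F : ℕ) : ℤ) with hq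
  set a : ℤ := q + 1 - Nat.card (cur a₂ a₄ a₆).toAffine.Point with ha
  let h : Odd a₂ a₄ a₆ → ℤ := fun P => (ht (P : ((cur a₂ a₄ a₆)⁄(FF a₂ a₄ a₆)).Point) : ℤ)
  have hp : ∀ x y, h (x + y) + h (x - y) = 2 * h x + 2 * h y := by
    intro x y
    have := ht_add_ht_sub h2 x.2 y.2
    have h' : ht ((x + y : Odd a₂ a₄ a₆) : ((cur a₂ a₄ a₆)⁄(FF a₂ a₄ a₆)).Point) +
        ht ((x - y : Odd a₂ a₄ a₆) : ((cur a₂ a₄ a₆)⁄(FF a₂ a₄ a₆)).Point) =
        2 * (ht (x : ((cur a₂ a₄ a₆)⁄(FF a₂ a₄ a₆)).Point) +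
          ht (y : ((cur a₂ a₄ a₆)⁄(FF a₂ a₄ a₆)).Point)) := this
    simp only [h]
    omega
  let g0 : Odd a₂ a₄ a₆ := ⟨GG, hG⟩
  let g1 : Odd a₂ a₄ a₆ := ⟨π GG, hG1⟩
  let g2 : Odd a₂ a₄ a₆ := ⟨π (π GG), hG2⟩
  have key := q_cayley h hp g0 g1 g2 q a
    (by simp [h, g0, ht_G]) (by simp [h, g1, ht_frob h2 hG, ht_G, hq])
    (by simp [h, g2, ht_frob h2 hG1, ht_frob h2 hG, ht_G, hq, pow_two])
    (by
      change ((ht (π GG - GG) : ℕ) : ℤ) = _
      rw [ht_frob_sub hF, ha]; ring)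
    (by
      change ((ht (π (π GG) + π GG) : ℕ) : ℤ) = q * ((ht (π GG + GG) : ℕ) : ℤ)
      rw [← map_add, ht_frob h2 ((Odd a₂ a₄ a₆).add_mem hG1 hG)]
      push_cast; rfl)
    (by
      change ((ht (π (π GG) - GG) : ℕ) : ℤ) =
        ((ht (π GG - GG) : ℕ) : ℤ) * ((ht (π GG + GG) : ℕ) : ℤ)
      rw [ht_frob_sq_sub hF]; push_cast; rfl)
  have h3 : ht ((g2 - a • g1 + q • g0 : Odd a₂ a₄ a₆) :
      ((cur a₂ a₄ a₆)⁄(FF a₂ a₄ a₆)).Point) = 0 := Int.natCast_eq_zero.mp key
  have h4 := two_smul_eq_zero_of_ht hF (g2 - a • g1 + q • g0 : Odd a₂ a₄ a₆).2 h3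
  rw [two_smul]
  exact h4

end

end Fermat.Agent.Schoof
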