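import Fermat.Agent.Schoof.Height

set_option autoImplicit false

/-!
# Heights and composition of rational functions
-/

open Polynomial

namespace Fermat.Agent.Schoof

variable {F : Type*} [Field F]

lemma HasHt.pow {u : RatFunc F} {d : ℕ} (h : HasHt ![u, 1] d) (n : ℕ) :
    HasHt ![u ^ n, 1] (d * n) := by
  obtain ⟨w, c, hc, hw, hv, h1, i, hi⟩ := h
  have hv0 := hv 0
  have hv1 := hv 1
  simp only [Matrix.cons_val_zero, Matrix.cons_val_one] at hv0 hv1
  refine ⟨![w 0 ^ n, w 1 ^ n], c ^ n, pow_ne_zero n hc, ?_, ?_, ?_, ?_⟩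
  · obtain ⟨e, he⟩ := hw.exists_sum
    rw [Fin.sum_univ_two] at he
    have hcop : IsCoprime (w 0) (w 1) := ⟨e 0, e 1, he⟩
    obtain ⟨s, t, hst⟩ := hcop.pow (m := n) (n := n)
    exact IsPrim.of_sum ![s, t] (by simpa [Fin.sum_univ_two] using hst)
  · intro j
    fin_cases j
    · simp [hv0, mul_pow]
    · simp only [Fin.mk_one, Matrix.cons_val_one, Matrix.cons_val_zero, map_pow]
      rw [← mul_pow, ← hv1, one_pow]
  · intro j
    fin_cases j
    · simpa [mul_comm] using natDegree_pow_le_of_le n (h1 0)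
    · simpa [mul_comm] using natDegree_pow_le_of_le n (h1 1)
  · refine ⟨i, ?_⟩
    have : (![w 0 ^ n, w 1 ^ n] i) = w i ^ n := by fin_cases i <;> simp
    rw [this, mul_comm d n, coeff_pow_of_natDegree_le (h1 i)]
    exact pow_ne_zero n hi

/-- homogenised evaluation -/
def hom {A : Type*} [CommRing A] [Algebra F A] (n : ℕ) (a : F[X]) (s t : A) : A :=
  ∑ i ∈ Finset.range (n + 1), algebraMap F A (a.coeff i) * s ^ i * t ^ (n - i)

lemma hom_eq_of_ne_zero {k : Type*} [Field k] [Algebra F k] {n : ℕ} {a : F[X]}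
    (ha : a.natDegree ≤ n) {s t : k} (ht : t ≠ 0) : hom n a s t = t ^ n * aeval (s / t) a := by
  rw [hom, aeval_eq_sum_range' (Nat.lt_succ_of_le ha), Finset.mul_sum]
  refine Finset.sum_congr rfl fun i hi => ?_
  have hi' : i ≤ n := Nat.lt_succ_iff.mp (Finset.mem_range.mp hi)
  rw [Algebra.smul_def, div_pow]
  have : t ^ n = t ^ (n - i) * t ^ i := by rw [← pow_add, Nat.sub_add_cancel hi']
  rw [this]
  field_simp

lemma hom_zero_right {A : Type*} [CommRing A] [Algebra F A] (n : ℕ) (a : F[X]) (s : A) :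
    hom n a s 0 = algebraMap F A (a.coeff n) * s ^ n := by
  rw [hom, Finset.sum_range_succ]
  simp only [Nat.sub_self, pow_zero, mul_one, add_eq_right]
  refine Finset.sum_eq_zero fun i hi => ?_
  have : i < n := Finset.mem_range.mp hi
  rw [zero_pow (by omega), mul_zero]

lemma hom_ne_zero {k : Type*} [Field k] [Algebra F k] {n : ℕ} {a b : F[X]}
    (hab : IsCoprime a b) (ha : a.natDegree ≤ n) (hb : b.natDegree ≤ n)
    (hn : a.coeff n ≠ 0 ∨ b.coeff n ≠ 0) {s t : k} (hst : ¬ (s = 0 ∧ t = 0)) :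
    ¬ (hom n a s t = 0 ∧ hom n b s t = 0) := by
  rintro ⟨h1, h2⟩
  by_cases ht : t = 0
  · subst ht
    have hs : s ≠ 0 := fun hs => hst ⟨hs, rfl⟩
    rw [hom_zero_right] at h1 h2
    rcases hn with hn | hn
    · exact hn (by simpa [hs] using h1)
    · exact hn (by simpa [hs] using h2)
  · rw [hom_eq_of_ne_zero ha ht] at h1
    rw [hom_eq_of_ne_zero hb ht] at h2
    have h1' := (mul_eq_zero.mp h1).resolve_left (pow_ne_zero n ht)
    have h2' := (mul_eq_zero.mp h2).resolve_left (pow_ne_zero n ht)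
    obtain ⟨p, q, hpq⟩ := hab
    have := congrArg (aeval (s / t)) hpq
    rw [map_add, map_mul, map_mul, h1', h2'] at this
    simp at this

lemma map_hom {A B : Type*} [CommRing A] [Algebra F A] [CommRing B] [Algebra F B] (φ : A →ₐ[F] B)
    (n : ℕ) (a : F[X]) (s t : A) : φ (hom n a s t) = hom n a (φ s) (φ t) := by
  simp [hom, map_sum]

lemma hom_natDegree_le {n m : ℕ} (a : F[X]) {s t : F[X]} (hs : s.natDegree ≤ m)
    (ht : t.natDegree ≤ m) : (hom n a s t).natDegree ≤ n * m := by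
  refine natDegree_sum_le_of_forall_le _ _ fun i hi => ?_
  have hi' : i ≤ n := Nat.lt_succ_iff.mp (Finset.mem_range.mp hi)
  have h1 := natDegree_mul_le_of_le (natDegree_mul_le_of_le
    (natDegree_C (a.coeff i)).le (natDegree_pow_le_of_le i hs))
    (natDegree_pow_le_of_le (n - i) ht)
  refine h1.trans ?_
  rw [zero_add, ← add_mul, Nat.add_sub_cancel' hi']

lemma hom_coeff {n m : ℕ} (a : F[X]) {s t : F[X]} (hs : s.natDegree ≤ m)
    (ht : t.natDegree ≤ m) : (hom n a s t).coeff (n * m) = hom n a (s.coeff m) (t.coeff m) := by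
  rw [hom, finsetSum_coeff, hom]
  refine Finset.sum_congr rfl fun i hi => ?_
  have hi' : i ≤ n := Nat.lt_succ_iff.mp (Finset.mem_range.mp hi)
  have e : n * m = (0 + i * m) + (n - i) * m := by
    rw [zero_add, ← add_mul, Nat.add_sub_cancel' hi']
  rw [Polynomial.algebraMap_eq, e, coeff_mul_add_eq_of_natDegree_le (natDegree_mul_le_of_le
    (natDegree_C (a.coeff i)).le (natDegree_pow_le_of_le i hs))
    (natDegree_pow_le_of_le (n - i) ht),
    coeff_mul_add_eq_of_natDegree_le (natDegree_C (a.coeff i)).le (natDegree_pow_le_of_le i hs)]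
  rw [coeff_pow_of_natDegree_le hs, coeff_pow_of_natDegree_le ht]
  simp

/-- Multiplicativity of heights under composition. -/
lemma HasHt.comp {R : RatFunc F} {n : ℕ} (hR : HasHt ![R, 1] n) (φ : RatFunc F →ₐ[F] RatFunc F)
    {m : ℕ} (hu : HasHt ![φ RatFunc.X, 1] m) : HasHt ![φ R, 1] (n * m) := by
  obtain ⟨w, c, hc, hw, hv, h1, i, hi⟩ := hR
  obtain ⟨w', c', hc', hw', hv', h1', i', hi'⟩ := hu
  have hv0 := hv 0
  have hv1 := hv 1
  have hv0' := hv' 0
  have hv1' := hv' 1
  simp only [Matrix.cons_val_zero, Matrix.cons_val_one] at hv0 hv1 hv0' hv1'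
  obtain ⟨e, he⟩ := hw.exists_sum
  rw [Fin.sum_univ_two] at he
  have hcop : IsCoprime (w 0) (w 1) := ⟨e 0, e 1, he⟩
  have hn : (w 0).coeff n ≠ 0 ∨ (w 1).coeff n ≠ 0 := by
    fin_cases i
    · exact Or.inl hi
    · exact Or.inr hi
  have ht0 : algebraMap F[X] (RatFunc F) (w' 1) ≠ 0 := by
    intro h0
    rw [h0, mul_zero] at hv1'
    exact one_ne_zero hv1'
  have hX : φ RatFunc.X = algebraMap F[X] (RatFunc F) (w' 0) / algebraMap F[X] (RatFunc F) (w' 1) := by
    rw [eq_div_iff ht0, hv0', mul_right_comm, ← hv1', one_mul]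
  have hφ : ∀ p : F[X], φ (algebraMap F[X] (RatFunc F) p) = aeval (φ RatFunc.X) p := by
    intro p
    rw [← RatFunc.aeval_X_left_eq_algebraMap, aeval_algHom_apply]
  have hhom : ∀ p : F[X], p.natDegree ≤ n →
      φ (algebraMap F[X] (RatFunc F) p) =
      (algebraMap F[X] (RatFunc F) (w' 1) ^ n)⁻¹ *
        algebraMap F[X] (RatFunc F) (hom n p (w' 0) (w' 1)) := by
    intro p hp
    have e2 := map_hom (IsScalarTower.toAlgHom F F[X] (RatFunc F)) n p (w' 0) (w' 1)
    simp only [IsScalarTower.coe_toAlgHom'] at e2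
    rw [e2, hom_eq_of_ne_zero hp ht0, hφ, hX]
    field_simp
  refine ⟨![hom n (w 0) (w' 0) (w' 1), hom n (w 1) (w' 0) (w' 1)],
    φ c * (algebraMap F[X] (RatFunc F) (w' 1) ^ n)⁻¹, ?_, ?_, ?_, ?_, ?_⟩
  · exact mul_ne_zero (by simpa using hc) (inv_ne_zero (pow_ne_zero n ht0))
  · refine IsPrim.of_forall_maximal fun I hI => ?_
    let _ := Ideal.Quotient.field I
    obtain ⟨j, hj⟩ := hw'.exists_notMem I hI.ne_top
    have hne : ¬ (Ideal.Quotient.mkₐ F I (w' 0) = 0 ∧ Ideal.Quotient.mkₐ F I (w' 1) = 0) := by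
      rintro ⟨a0, a1⟩
      rw [Ideal.Quotient.mkₐ_eq_mk, Ideal.Quotient.eq_zero_iff_mem] at a0 a1
      fin_cases j
      · exact hj a0
      · exact hj a1
    have := hom_ne_zero hcop (h1 0) (h1 1) hn hne
    by_contra hcon
    push Not at hcon
    apply this
    rw [← map_hom, ← map_hom]
    constructor
    · rw [Ideal.Quotient.mkₐ_eq_mk, Ideal.Quotient.eq_zero_iff_mem]
      exact hcon 0
    · rw [Ideal.Quotient.mkₐ_eq_mk, Ideal.Quotient.eq_zero_iff_mem]
      exact hcon 1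
  · intro j
    fin_cases j
    · simp only [Fin.zero_eta, Matrix.cons_val_zero]
      rw [hv0, map_mul, hhom _ (h1 0)]
      ring
    · simp only [Fin.mk_one, Matrix.cons_val_one, Matrix.cons_val_zero]
      have := congrArg φ hv1
      rw [map_one, map_mul, hhom _ (h1 1)] at this
      rw [this]
      ring
  · intro j
    fin_cases j
    · exact hom_natDegree_le _ (h1' 0) (h1' 1)
    · exact hom_natDegree_le _ (h1' 0) (h1' 1)
  · have hne : ¬ ((w' 0).coeff m = 0 ∧ (w' 1).coeff m = 0) := by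
      rintro ⟨a0, a1⟩
      fin_cases i'
      · exact hi' a0
      · exact hi' a1
    have := hom_ne_zero hcop (h1 0) (h1 1) hn hne
    by_contra hcon
    push Not at hcon
    apply this
    rw [← hom_coeff _ (h1' 0) (h1' 1), ← hom_coeff _ (h1' 0) (h1' 1)]
    exact ⟨hcon 0, hcon 1⟩

end Fermat.Agent.Schoof
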