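import Fermat.Agent.Schoof.Comp

set_option autoImplicit false

/-!
# The function field of `y² = x³ + a₂x² + a₄x + a₆` as a quadratic algebra over `F(X)`
-/

open Polynomial WeierstrassCurve WeierstrassCurve.Affine WeierstrassCurve.Affine.Point

namespace Fermat.Agent.Schoof

section defs

variable {F : Type*} [Field F] (a₂ a₄ a₆ : F)

/-- the cubic polynomial -/
noncomputable def cub : F[X] := X ^ 3 + C a₂ * X ^ 2 + C a₄ * X + C a₆

lemma cub_natDegree : (cub a₂ a₄ a₆).natDegree = 3 := by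
  unfold cub; compute_degree!

lemma cub_ne_zero : cub a₂ a₄ a₆ ≠ 0 := by
  intro h
  have := cub_natDegree a₂ a₄ a₆
  rw [h] at this
  simp at this

/-- the curve -/
def cur : WeierstrassCurve F := ⟨0, a₂, 0, a₄, a₆⟩

/-- the cubic as a rational function -/
noncomputable abbrev cubK : RatFunc F := algebraMap F[X] (RatFunc F) (cub a₂ a₄ a₆)

/-- the function field -/
abbrev FF := QuadraticAlgebra (RatFunc F) (cubK a₂ a₄ a₆) 0

lemma cubK_not_sq (r : RatFunc F) : r ^ 2 ≠ cubK a₂ a₄ a₆ := by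
  intro h
  have hr : r ≠ 0 := by
    rintro rfl
    rw [zero_pow two_ne_zero] at h
    exact cub_ne_zero a₂ a₄ a₆ ((map_eq_zero_iff _ (RatFunc.algebraMap_injective F)).mp h.symm)
  have := congrArg RatFunc.intDegree h
  rw [pow_two, RatFunc.intDegree_mul hr hr, RatFunc.intDegree_polynomial, cub_natDegree] at this
  omega

/-- the only solution of `r² f = c` with `c` constant is `0`. -/
lemma sq_mul_cubK {r : RatFunc F} {c : F} (h : r ^ 2 * cubK a₂ a₄ a₆ = algebraMap F (RatFunc F) c) :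
    r = 0 := by
  by_contra hr
  have := congrArg RatFunc.intDegree h
  have hc : cubK a₂ a₄ a₆ ≠ 0 := by
    intro h0
    exact cub_ne_zero a₂ a₄ a₆ ((map_eq_zero_iff _ (RatFunc.algebraMap_injective F)).mp h0)
  rw [pow_two, RatFunc.intDegree_mul (mul_ne_zero hr hr) hc, RatFunc.intDegree_mul hr hr,
    RatFunc.intDegree_polynomial, cub_natDegree] at this
  have h2 : RatFunc.intDegree (algebraMap F (RatFunc F) c) = 0 := by
    rw [RatFunc.algebraMap_eq_C, RatFunc.intDegree_C]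
  rw [h2] at this
  omega

instance factNotSq : Fact (∀ r : RatFunc F, r ^ 2 ≠ cubK a₂ a₄ a₆ + 0 * r) :=
  ⟨fun r h => cubK_not_sq a₂ a₄ a₆ r (by rw [h]; ring)⟩

noncomputable instance decEqFF : DecidableEq (FF a₂ a₄ a₆) := Classical.decEq _

/-- conjugation as an algebra homomorphism -/
noncomputable def conj : FF a₂ a₄ a₆ →ₐ[F] FF a₂ a₄ a₆ :=
  { starRingEnd (FF a₂ a₄ a₆) with
    commutes' := fun r => by
      rw [IsScalarTower.algebraMap_apply F (RatFunc F) (FF a₂ a₄ a₆)]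
      ext
      · simp [starRingEnd_apply]
      · simp [starRingEnd_apply] }

variable {a₂ a₄ a₆}

@[simp] lemma conj_re (z : FF a₂ a₄ a₆) : (conj a₂ a₄ a₆ z).re = z.re := by
  change (star z).re = z.re
  simp

@[simp] lemma conj_im (z : FF a₂ a₄ a₆) : (conj a₂ a₄ a₆ z).im = -z.im := by
  change (star z).im = -z.im
  simp

variable (a₂ a₄ a₆)

/-- Points of the curve over its function field which are odd. -/
noncomputable def Odd : AddSubgroup ((cur a₂ a₄ a₆)⁄(FF a₂ a₄ a₆)).Point :=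
  (Point.map (conj a₂ a₄ a₆) + AddMonoidHom.id _).ker

variable {a₂ a₄ a₆}

lemma mem_Odd {P : ((cur a₂ a₄ a₆)⁄(FF a₂ a₄ a₆)).Point} :
    P ∈ Odd a₂ a₄ a₆ ↔ Point.map (conj a₂ a₄ a₆) P = -P := by
  rw [Odd, AddMonoidHom.mem_ker, AddMonoidHom.add_apply, AddMonoidHom.id_apply, add_eq_zero_iff_eq_neg]

/-- the rational part of the `x`-coordinate. -/
noncomputable def xco (P : ((cur a₂ a₄ a₆)⁄(FF a₂ a₄ a₆)).Point) : Fin 2 → RatFunc F :=
  match P with
  | 0 => ![1, 0]
  | .some x _ _ => ![x.re, 1]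

/-- the height of the `x`-coordinate. -/
noncomputable def ht (P : ((cur a₂ a₄ a₆)⁄(FF a₂ a₄ a₆)).Point) : ℕ :=
  match P with
  | 0 => 0
  | .some x _ _ => max x.re.num.natDegree x.re.denom.natDegree

lemma hasHt_xco (P : ((cur a₂ a₄ a₆)⁄(FF a₂ a₄ a₆)).Point) : HasHt (xco P) (ht P) := by
  match P with
  | 0 => exact hasHt_infty
  | .some x _ _ => exact hasHt_of_ratFunc x.re

lemma xco_eq (h2 : (2 : F) ≠ 0) {P : ((cur a₂ a₄ a₆)⁄(FF a₂ a₄ a₆)).Point}
    (hP : P ∈ Odd a₂ a₄ a₆) :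
    (fun i => algebraMap (RatFunc F) (FF a₂ a₄ a₆) (xco P i)) = P.xRep := by
  match P with
  | 0 =>
    funext i
    fin_cases i
    · simp [xco]
    · simp [xco]
  | .some x y h =>
    rw [mem_Odd, Point.map_some, neg_some, some.injEq] at hP
    have hx : x.im = 0 := by
      have := congrArg QuadraticAlgebra.im hP.1
      rw [conj_im] at this
      have h2' : (2 : RatFunc F) ≠ 0 := by
        intro h0
        apply h2
        apply (algebraMap F (RatFunc F)).injective
        rw [map_ofNat, h0, _root_.map_zero]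
      have h3 : (2 : RatFunc F) * x.im = 0 := by linear_combination -this
      exact (mul_eq_zero.mp h3).resolve_left h2'
    funext i
    fin_cases i
    · simp only [xco, xRep, Fin.zero_eta, Matrix.cons_val_zero]
      ext
      · simp
      · simp [hx]
    · simp [xco, xRep]

end defs

section parallelogram

variable {F : Type*} [Field F] {a₂ a₄ a₆ : F} [(cur a₂ a₄ a₆).IsElliptic]

/-- The parallelogram law. -/
theorem ht_add_ht_sub (h2 : (2 : F) ≠ 0) {P Q : ((cur a₂ a₄ a₆)⁄(FF a₂ a₄ a₆)).Point}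
    (hP : P ∈ Odd a₂ a₄ a₆) (hQ : Q ∈ Odd a₂ a₄ a₆) :
    ht (P + Q) + ht (P - Q) = 2 * (ht P + ht Q) := by
  set A := algebraMap (RatFunc F) (FF a₂ a₄ a₆) with hA
  have hinj : Function.Injective A := A.injective
  have : ((cur a₂ a₄ a₆)⁄(FF a₂ a₄ a₆)).IsElliptic :=
    inferInstanceAs ((cur a₂ a₄ a₆).map (algebraMap F (FF a₂ a₄ a₆))).IsElliptic
  obtain ⟨c, hc, hcv⟩ := exists_sym2x_eq_addSubMap ((cur a₂ a₄ a₆)⁄(FF a₂ a₄ a₆)) P Q
  have hPQ := (Odd a₂ a₄ a₆).add_mem hP hQ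
  have hPQ' := (Odd a₂ a₄ a₆).sub_mem hP hQ
  -- the symmetric squares
  have hs : ∀ {P Q : ((cur a₂ a₄ a₆)⁄(FF a₂ a₄ a₆)).Point}, P ∈ Odd a₂ a₄ a₆ → Q ∈ Odd a₂ a₄ a₆ →
      P.sym2x Q = fun i => A (![xco P 0 * xco Q 0, xco P 0 * xco Q 1 + xco P 1 * xco Q 0,
        xco P 1 * xco Q 1] i) := by
    intro P Q hP hQ
    have e1 := xco_eq h2 hP
    have e2 := xco_eq h2 hQ
    rw [sym2x, ← e1, ← e2]
    funext i
    fin_cases i <;> simp [hA]
  have h1 := (hasHt_xco P).sym (hasHt_xco Q)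
  have h3 := (hasHt_xco (P + Q)).sym (hasHt_xco (P - Q))
  have h4 := h1.asm (cur a₂ a₄ a₆)
  rw [addSubMap_eval, hs hP hQ, hs hPQ hPQ'] at hcv
  set u : Fin 3 → RatFunc F := ![xco (P + Q) 0 * xco (P - Q) 0,
    xco (P + Q) 0 * xco (P - Q) 1 + xco (P + Q) 1 * xco (P - Q) 0,
        xco (P + Q) 1 * xco (P - Q) 1] with hu
  set v : Fin 3 → RatFunc F := ![xco P 0 * xco Q 0, xco P 0 * xco Q 1 + xco P 1 * xco Q 0,
        xco P 1 * xco Q 1] with hv
  have hmapc : (cur a₂ a₄ a₆)⁄(FF a₂ a₄ a₆) = ((cur a₂ a₄ a₆).map (algebraMap F (RatFunc F))).map A := by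
    rw [WeierstrassCurve.map_map]
    rfl
  have hcv' : (fun i => A (asm ((cur a₂ a₄ a₆).map (algebraMap F (RatFunc F))) v i)) =
      c • fun i => A (u i) := by
    rw [← map_asm, ← hcv, ← hmapc]
    rfl
  -- some coordinate of `u` is nonzero
  obtain ⟨w, d, hd, -, hw, -, i, hi⟩ := id h3
  have hui : u i ≠ 0 := by
    rw [hw i]
    refine mul_ne_zero hd ?_
    intro h0
    apply hi
    have : w i = 0 := (map_eq_zero_iff _ (RatFunc.algebraMap_injective F)).mp h0
    rw [this]; simp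
  have hci : c = A (asm ((cur a₂ a₄ a₆).map (algebraMap F (RatFunc F))) v i / u i) := by
    have := congrFun hcv' i
    simp only [Pi.smul_apply, smul_eq_mul] at this
    rw [map_div₀, this, mul_div_assoc, div_self, mul_one]
    rwa [map_ne_zero_iff _ hinj]
  set c₀ := asm ((cur a₂ a₄ a₆).map (algebraMap F (RatFunc F))) v i / u i with hc₀
  have hc₀0 : c₀ ≠ 0 := by
    intro h0
    rw [h0, _root_.map_zero] at hci
    exact hc hci
  have heq : asm ((cur a₂ a₄ a₆).map (algebraMap F (RatFunc F))) v = c₀ • u := by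
    funext j
    apply hinj
    have := congrFun hcv' j
    simp only [Pi.smul_apply, smul_eq_mul] at this ⊢
    rw [this, map_mul, ← hci]
  rw [heq] at h4
  exact (h3.smul hc₀0).unique h4

end parallelogram

end Fermat.Agent.Schoof
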