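import Fermat.Agent.Schoof.AddSub

set_option autoImplicit false

/-!
# Heights of vectors of rational functions in one variable
-/

open Polynomial

namespace Fermat.Agent.Schoof

variable {F : Type*} [Field F]

/-- a vector of polynomials generating the unit ideal -/
def IsPrim {n : ℕ} (w : Fin n → F[X]) : Prop := Ideal.span (Set.range w) = ⊤

/-- `v` has height `d`: it is proportional to a primitive vector of polynomials of maximal
degree `d`. -/
def HasHt {n : ℕ} (v : Fin n → RatFunc F) (d : ℕ) : Prop :=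
  ∃ (w : Fin n → F[X]) (c : RatFunc F), c ≠ 0 ∧ IsPrim w ∧
    (∀ i, v i = c * algebraMap F[X] (RatFunc F) (w i)) ∧
    (∀ i, (w i).natDegree ≤ d) ∧ ∃ i, (w i).coeff d ≠ 0

lemma IsPrim.exists_sum {n : ℕ} {w : Fin n → F[X]} (h : IsPrim w) :
    ∃ e : Fin n → F[X], ∑ i, e i * w i = 1 := by
  have h1 : (1 : F[X]) ∈ Ideal.span (Set.range w) := by rw [h]; trivial
  rw [Ideal.mem_span_range_iff_exists_fun] at h1
  exact h1

lemma IsPrim.of_sum {n : ℕ} {w : Fin n → F[X]} (e : Fin n → F[X]) (h : ∑ i, e i * w i = 1) :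
    IsPrim w := by
  rw [IsPrim, Ideal.eq_top_iff_one, Ideal.mem_span_range_iff_exists_fun]
  exact ⟨e, h⟩

lemma IsPrim.exists_notMem {n : ℕ} {w : Fin n → F[X]} (h : IsPrim w) (I : Ideal F[X])
    (hI : I ≠ ⊤) : ∃ i, w i ∉ I := by
  by_contra hcon
  push Not at hcon
  apply hI
  rw [eq_top_iff, ← h, Ideal.span_le]
  rintro _ ⟨i, rfl⟩
  exact hcon i

lemma IsPrim.of_forall_maximal {n : ℕ} {w : Fin n → F[X]}
    (h : ∀ I : Ideal F[X], I.IsMaximal → ∃ i, w i ∉ I) : IsPrim w := by
  by_contra hne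
  obtain ⟨I, hI, hle⟩ := Ideal.exists_le_maximal _ hne
  obtain ⟨i, hi⟩ := h I hI
  exact hi (hle (Ideal.subset_span ⟨i, rfl⟩))

lemma HasHt.smul {n : ℕ} {v : Fin n → RatFunc F} {d : ℕ} (h : HasHt v d) {c : RatFunc F}
    (hc : c ≠ 0) : HasHt (c • v) d := by
  obtain ⟨w, c', hc', hw, hv, h1, h2⟩ := h
  exact ⟨w, c * c', mul_ne_zero hc hc', hw, fun i => by simp [hv i, mul_assoc], h1, h2⟩

lemma HasHt.le_of {n : ℕ} {v : Fin n → RatFunc F} {d d' : ℕ} (h : HasHt v d) (h' : HasHt v d') :
    d ≤ d' := by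
  obtain ⟨w, c, hc, hw, hv, h1, i, hi⟩ := h
  obtain ⟨w', c', hc', hw', hv', h1', -⟩ := h'
  -- `c' w' = c w`, `r = c / c'`
  obtain ⟨e, he⟩ := hw.exists_sum
  obtain ⟨e', he'⟩ := hw'.exists_sum
  set A := algebraMap F[X] (RatFunc F) with hA
  have hAinj : Function.Injective A := RatFunc.algebraMap_injective F
  have hr : c / c' = A (∑ i, e i * w' i) := by
    have : c = c' * A (∑ i, e i * w' i) := by
      calc c = c * A (∑ i, e i * w i) := by rw [he]; simp
        _ = ∑ i, A (e i) * (c * A (w i)) := by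
            rw [map_sum, Finset.mul_sum]; exact Finset.sum_congr rfl fun i _ => by
              rw [map_mul]; ring
        _ = ∑ i, A (e i) * (c' * A (w' i)) := by
            refine Finset.sum_congr rfl fun i _ => by rw [← hv i, ← hv' i]
        _ = c' * A (∑ i, e i * w' i) := by
            rw [map_sum, Finset.mul_sum]; exact Finset.sum_congr rfl fun i _ => by
              rw [map_mul]; ring
    rw [div_eq_iff hc']; rw [mul_comm]; exact this
  have hr' : c' / c = A (∑ i, e' i * w i) := by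
    have : c' = c * A (∑ i, e' i * w i) := by
      calc c' = c' * A (∑ i, e' i * w' i) := by rw [he']; simp
        _ = ∑ i, A (e' i) * (c' * A (w' i)) := by
            rw [map_sum, Finset.mul_sum]; exact Finset.sum_congr rfl fun i _ => by
              rw [map_mul]; ring
        _ = ∑ i, A (e' i) * (c * A (w i)) := by
            refine Finset.sum_congr rfl fun i _ => by rw [← hv i, ← hv' i]
        _ = c * A (∑ i, e' i * w i) := by
            rw [map_sum, Finset.mul_sum]; exact Finset.sum_congr rfl fun i _ => by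
              rw [map_mul]; ring
    rw [div_eq_iff hc]; rw [mul_comm]; exact this
  set r := ∑ i, e i * w' i
  set r' := ∑ i, e' i * w i
  have hrr : r * r' = 1 := by
    apply hAinj
    rw [map_mul, ← hr, ← hr', map_one]
    field_simp
  have hwr : w' i = r * w i := by
    apply hAinj
    rw [map_mul, ← hr]
    have := (hv i).symm.trans (hv' i)
    field_simp
    rw [mul_comm]
    exact this.symm
  have hru : IsUnit r := IsUnit.of_mul_eq_one _ hrr
  obtain ⟨u, hu, hur⟩ := Polynomial.isUnit_iff.mp hru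
  have : (w' i).coeff d ≠ 0 := by
    rw [hwr, ← hur, coeff_C_mul]
    exact mul_ne_zero hu.ne_zero hi
  by_contra hlt
  push Not at hlt
  exact this (coeff_eq_zero_of_natDegree_lt (lt_of_le_of_lt (h1' i) hlt))

lemma HasHt.unique {n : ℕ} {v : Fin n → RatFunc F} {d d' : ℕ} (h : HasHt v d) (h' : HasHt v d') :
    d = d' := le_antisymm (h.le_of h') (h'.le_of h)

lemma hasHt_of_ratFunc (u : RatFunc F) :
    HasHt ![u, 1] (max u.num.natDegree u.denom.natDegree) := by
  refine ⟨![u.num, u.denom], (algebraMap F[X] (RatFunc F) u.denom)⁻¹, ?_, ?_, ?_, ?_, ?_⟩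
  · simpa using RatFunc.denom_ne_zero u
  · obtain ⟨a, b, hab⟩ := RatFunc.isCoprime_num_denom u
    exact IsPrim.of_sum ![a, b] (by simpa [Fin.sum_univ_two] using hab)
  · have hd : algebraMap F[X] (RatFunc F) u.denom ≠ 0 := by
      simpa using RatFunc.denom_ne_zero u
    intro i
    fin_cases i
    · simp only [Fin.zero_eta, Matrix.cons_val_zero]
      nth_rw 1 [← RatFunc.num_div_denom u]
      field_simp
    · simp [inv_mul_cancel₀ hd]
  · intro i
    fin_cases i <;> simp
  · rcases le_total u.num.natDegree u.denom.natDegree with h | h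
    · refine ⟨1, ?_⟩
      rw [max_eq_right h]
      simpa using RatFunc.denom_ne_zero u
    · by_cases h0 : u.num = 0
      · refine ⟨1, ?_⟩
        have h' : u.denom.natDegree = 0 := by
          simp [RatFunc.num_eq_zero_iff.mp h0]
        rw [h0]
        simp [h']
        have : u.denom.coeff u.denom.natDegree ≠ 0 := by
          simpa using RatFunc.denom_ne_zero u
        rwa [h'] at this
      · refine ⟨0, ?_⟩
        rw [max_eq_left h]
        simpa using h0

lemma hasHt_infty : HasHt (F := F) ![1, 0] 0 := by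
  refine ⟨![1, 0], 1, one_ne_zero, ?_, ?_, ?_, ?_⟩
  · exact IsPrim.of_sum ![1, 0] (by simp [Fin.sum_univ_two])
  · intro i
    fin_cases i <;> simp
  · intro i
    fin_cases i <;> simp
  · exact ⟨0, by simp⟩

/-- from coprime representation -/
lemma hasHt_of_coprime {a b : F[X]} (hab : IsCoprime a b) (hb : b ≠ 0) {d : ℕ}
    (ha : a.natDegree ≤ d) (hb' : b.natDegree ≤ d) (h : a.coeff d ≠ 0 ∨ b.coeff d ≠ 0) :
    HasHt ![algebraMap F[X] (RatFunc F) a / algebraMap F[X] (RatFunc F) b, 1] d := by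
  have hb0 : algebraMap F[X] (RatFunc F) b ≠ 0 := by simpa using hb
  refine ⟨![a, b], (algebraMap F[X] (RatFunc F) b)⁻¹, inv_ne_zero hb0, ?_, ?_, ?_, ?_⟩
  · obtain ⟨s, t, hst⟩ := hab
    exact IsPrim.of_sum ![s, t] (by simpa [Fin.sum_univ_two] using hst)
  · intro i
    fin_cases i
    · simp
      field_simp
    · simp [inv_mul_cancel₀ hb0]
  · intro i
    fin_cases i
    · simpa using ha
    · simpa using hb'
  · rcases h with h | h
    · exact ⟨0, by simpa using h⟩
    · exact ⟨1, by simpa using h⟩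

/-- Symmetric square. -/
lemma HasHt.sym {v v' : Fin 2 → RatFunc F} {d d' : ℕ} (h : HasHt v d) (h' : HasHt v' d') :
    HasHt ![v 0 * v' 0, v 0 * v' 1 + v 1 * v' 0, v 1 * v' 1] (d + d') := by
  obtain ⟨w, c, hc, hw, hv, h1, i, hi⟩ := h
  obtain ⟨w', c', hc', hw', hv', h1', i', hi'⟩ := h'
  refine ⟨![w 0 * w' 0, w 0 * w' 1 + w 1 * w' 0, w 1 * w' 1], c * c', mul_ne_zero hc hc',
    ?_, ?_, ?_, ?_⟩
  · refine IsPrim.of_forall_maximal fun I hI => ?_
    by_contra hcon
    push Not at hcon
    have e0 := hcon 0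
    have e1 := hcon 1
    have e2 := hcon 2
    simp only [Matrix.cons_val_zero, Matrix.cons_val_one, Matrix.cons_val] at e0 e1 e2
    have hp := hI.isPrime
    obtain ⟨j, hj⟩ := hw.exists_notMem I hI.ne_top
    obtain ⟨j', hj'⟩ := hw'.exists_notMem I hI.ne_top
    rcases hp.mem_or_mem e0 with a0 | a0 <;> rcases hp.mem_or_mem e2 with a2 | a2
    · fin_cases j <;> simp_all
    · have : w 1 * w' 0 ∈ I := by
        have := I.sub_mem e1 (I.mul_mem_right (w' 1) a0)
        simpa using this
      rcases hp.mem_or_mem this with b | b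
      · fin_cases j <;> simp_all
      · fin_cases j' <;> simp_all
    · have : w 0 * w' 1 ∈ I := by
        have := I.sub_mem e1 (I.mul_mem_right (w' 0) a2)
        simpa using this
      rcases hp.mem_or_mem this with b | b
      · fin_cases j <;> simp_all
      · fin_cases j' <;> simp_all
    · fin_cases j' <;> simp_all
  · intro i
    fin_cases i
    · simp [hv, hv']; ring
    · simp [hv, hv']; ring
    · simp [hv, hv']; ring
  · intro i
    fin_cases i
    · simpa using natDegree_mul_le_of_le (h1 0) (h1' 0)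
    · simp only [Fin.mk_one, Matrix.cons_val_one, Matrix.cons_val_zero]
      exact (natDegree_add_le _ _).trans (max_le (natDegree_mul_le_of_le (h1 0) (h1' 1))
        (natDegree_mul_le_of_le (h1 1) (h1' 0)))
    · simpa using natDegree_mul_le_of_le (h1 1) (h1' 1)
  · have k00 := coeff_mul_add_eq_of_natDegree_le (h1 0) (h1' 0)
    have k01 := coeff_mul_add_eq_of_natDegree_le (h1 0) (h1' 1)
    have k10 := coeff_mul_add_eq_of_natDegree_le (h1 1) (h1' 0)
    have k11 := coeff_mul_add_eq_of_natDegree_le (h1 1) (h1' 1)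
    by_contra hcon
    push Not at hcon
    have e0 := hcon 0
    have e1 := hcon 1
    have e2 := hcon 2
    simp only [Matrix.cons_val_zero, Matrix.cons_val_one, Matrix.cons_val, coeff_add,
      k00, k01, k10, k11] at e0 e1 e2
    rcases mul_eq_zero.mp e0 with a0 | a0 <;> rcases mul_eq_zero.mp e2 with a2 | a2
    · fin_cases i <;> simp_all
    · fin_cases i <;> fin_cases i' <;> simp_all
    · fin_cases i <;> fin_cases i' <;> simp_all
    · fin_cases i' <;> simp_all

/-- the explicit form of the addition-subtraction map -/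
def asm {R : Type*} [CommRing R] (W : WeierstrassCurve R) (v : Fin 3 → R) : Fin 3 → R :=
  ![v 0 ^ 2 - W.b₄ * v 0 * v 2 - W.b₆ * v 1 * v 2 - W.b₈ * v 2 ^ 2,
    2 * v 1 * v 0 + W.b₂ * v 0 * v 2 + W.b₄ * v 1 * v 2 + W.b₆ * v 2 ^ 2,
    v 1 ^ 2 - 4 * v 0 * v 2]

lemma asm_ne_zero {K : Type*} [Field K] (W : WeierstrassCurve K) [W.IsElliptic] {v : Fin 3 → K}
    (hv : v ≠ 0) : asm W v ≠ 0 := by
  have := WeierstrassCurve.addSubMap_ne_zero W hv
  rw [addSubMap_eval] at this
  exact this

lemma map_asm {R S : Type*} [CommRing R] [CommRing S] (f : R →+* S) (W : WeierstrassCurve R)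
    (v : Fin 3 → R) : asm (W.map f) (fun i => f (v i)) = fun i => f (asm W v i) := by
  funext i
  fin_cases i
  · simp [asm]
  · simp [asm, map_ofNat]
  · simp [asm, map_ofNat]

lemma asm_C (W : WeierstrassCurve F) (w : Fin 3 → F[X]) :
    asm (W.map (C : F →+* F[X])) w =
      ![C 1 * w 0 * w 0 - C W.b₄ * w 0 * w 2 - C W.b₆ * w 1 * w 2 - C W.b₈ * w 2 * w 2,
        C 2 * w 1 * w 0 + C W.b₂ * w 0 * w 2 + C W.b₄ * w 1 * w 2 + C W.b₆ * w 2 * w 2,
        C 1 * w 1 * w 1 - C 4 * w 0 * w 2] := by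
  have e2 : (C 2 : F[X]) = 2 := rfl
  have e4 : (C 4 : F[X]) = 4 := rfl
  funext i
  fin_cases i
  · simp [asm]; ring
  · simp [asm, e2]; ring
  · simp [asm, e4]; ring

lemma natDegree_sub_le' {d : ℕ} {p q : F[X]} (hp : p.natDegree ≤ d) (hq : q.natDegree ≤ d) :
    (p - q).natDegree ≤ d := (natDegree_sub_le_of_le hp hq).trans (max_self d).le

lemma natDegree_CC {d : ℕ} (b : F) (p q : F[X]) (hp : p.natDegree ≤ d) (hq : q.natDegree ≤ d) :
    (C b * p * q).natDegree ≤ 2 * d := by
  have := natDegree_mul_le_of_le (natDegree_mul_le_of_le (natDegree_C b).le hp) hq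
  omega

lemma coeff_CC {d : ℕ} (b : F) (p q : F[X]) (hp : p.natDegree ≤ d) (hq : q.natDegree ≤ d) :
    (C b * p * q).coeff (2 * d) = b * p.coeff d * q.coeff d := by
  rw [mul_assoc, coeff_C_mul, two_mul, coeff_mul_add_eq_of_natDegree_le hp hq, mul_assoc]

lemma asm_natDegree_le (W : WeierstrassCurve F) (w : Fin 3 → F[X]) {d : ℕ}
    (h1 : ∀ i, (w i).natDegree ≤ d) (i : Fin 3) :
    (asm (W.map (C : F →+* F[X])) w i).natDegree ≤ 2 * d := by
  rw [asm_C]
  fin_cases i
  · exact natDegree_sub_le' (natDegree_sub_le' (natDegree_sub_le'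
      (natDegree_CC 1 _ _ (h1 0) (h1 0)) (natDegree_CC _ _ _ (h1 0) (h1 2)))
      (natDegree_CC _ _ _ (h1 1) (h1 2))) (natDegree_CC _ _ _ (h1 2) (h1 2))
  · exact natDegree_add_le_of_degree_le (natDegree_add_le_of_degree_le
      (natDegree_add_le_of_degree_le
      (natDegree_CC 2 _ _ (h1 1) (h1 0)) (natDegree_CC _ _ _ (h1 0) (h1 2)))
      (natDegree_CC _ _ _ (h1 1) (h1 2))) (natDegree_CC _ _ _ (h1 2) (h1 2))
  · exact natDegree_sub_le' (natDegree_CC 1 _ _ (h1 1) (h1 1))
      (natDegree_CC 4 _ _ (h1 0) (h1 2))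

lemma asm_coeff (W : WeierstrassCurve F) (w : Fin 3 → F[X]) {d : ℕ}
    (h1 : ∀ i, (w i).natDegree ≤ d) (i : Fin 3) :
    (asm (W.map (C : F →+* F[X])) w i).coeff (2 * d) = asm W (fun i => (w i).coeff d) i := by
  rw [asm_C]
  fin_cases i
  · simp only [Fin.zero_eta, Matrix.cons_val_zero, coeff_sub, asm]
    rw [coeff_CC 1 _ _ (h1 0) (h1 0), coeff_CC _ _ _ (h1 0) (h1 2), coeff_CC _ _ _ (h1 1) (h1 2),
      coeff_CC _ _ _ (h1 2) (h1 2)]
    ring
  · simp only [Fin.mk_one, Matrix.cons_val_one, Matrix.cons_val_zero, coeff_add, asm]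
    rw [coeff_CC 2 _ _ (h1 1) (h1 0), coeff_CC _ _ _ (h1 0) (h1 2), coeff_CC _ _ _ (h1 1) (h1 2),
      coeff_CC _ _ _ (h1 2) (h1 2)]
    ring
  · simp only [Fin.reduceFinMk, Matrix.cons_val, coeff_sub, asm]
    rw [coeff_CC 1 _ _ (h1 1) (h1 1), coeff_CC 4 _ _ (h1 0) (h1 2)]
    ring

/-- Effect of the addition-subtraction map on heights. -/
lemma HasHt.asm (W : WeierstrassCurve F) [W.IsElliptic] {v : Fin 3 → RatFunc F} {d : ℕ}
    (h : HasHt v d) :
    HasHt (asm (W.map (algebraMap F (RatFunc F))) v) (2 * d) := by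
  obtain ⟨w, c, hc, hw, hv, h1, i, hi⟩ := h
  have hmap : W.map (algebraMap F (RatFunc F)) =
      (W.map (C : F →+* F[X])).map (algebraMap F[X] (RatFunc F)) := by
    rw [WeierstrassCurve.map_map]
    rfl
  refine ⟨Fermat.Agent.Schoof.asm (W.map (C : F →+* F[X])) w, c ^ 2, pow_ne_zero 2 hc, ?_, ?_,
    asm_natDegree_le W w h1, ?_⟩
  · refine IsPrim.of_forall_maximal fun I hI => ?_
    let _ := Ideal.Quotient.field I
    obtain ⟨j, hj⟩ := hw.exists_notMem I hI.ne_top
    have hne : (fun i => Ideal.Quotient.mk I (w i)) ≠ 0 := by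
      intro h0
      exact hj (Ideal.Quotient.eq_zero_iff_mem.mp (congrFun h0 j))
    have := asm_ne_zero ((W.map (C : F →+* F[X])).map (Ideal.Quotient.mk I)) hne
    rw [map_asm] at this
    by_contra hcon
    push Not at hcon
    apply this
    funext i
    exact Ideal.Quotient.eq_zero_iff_mem.mpr (hcon i)
  · intro i
    rw [hmap]
    have := congrFun (map_asm (algebraMap F[X] (RatFunc F)) (W.map (C : F →+* F[X])) w) i
    rw [← this]
    have hv' : v = fun i => c * algebraMap F[X] (RatFunc F) (w i) := funext hv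
    rw [hv']
    fin_cases i
    · simp only [Fermat.Agent.Schoof.asm, Fin.zero_eta, Matrix.cons_val_zero]
      ring
    · simp only [Fermat.Agent.Schoof.asm, Fin.mk_one, Matrix.cons_val_one, Matrix.cons_val_zero]
      ring
    · simp only [Fermat.Agent.Schoof.asm, Fin.reduceFinMk, Matrix.cons_val]
      ring
  · have hne : (fun i => (w i).coeff d) ≠ 0 := fun h0 => hi (congrFun h0 i)
    have := asm_ne_zero W hne
    by_contra hcon
    push Not at hcon
    apply this
    funext i
    rw [← asm_coeff W w h1 i, hcon i]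
    rfl

end Fermat.Agent.Schoof
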