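import Mathlib

set_option autoImplicit false

/-!
# Functions satisfying the parallelogram law
-/

namespace Fermat.Agent.Schoof

variable {A : Type*} [AddCommGroup A] (h : A → ℤ)
  (hp : ∀ x y, h (x + y) + h (x - y) = 2 * h x + 2 * h y)

include hp

lemma q_zero : h 0 = 0 := by
  have := hp 0 0
  simp at this
  omega

lemma q_neg (x : A) : h (-x) = h x := by
  have h1 := hp 0 x
  have h0 := q_zero h hp
  rw [zero_add, zero_sub, h0] at h1
  omega

lemma q_add3 (x y z : A) : h (x + y + z) = h (x + y) + h (y + z) + h (x + z) - h x - h y - h z := by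
  have e1 := hp (x + y) z
  have e2 := hp (x + z) y
  have e3 := hp x (y - z)
  have e4 := hp y z
  have e5 := hp (y + z) x
  have e6 := hp x (y + z)
  have n1 : x + y + z = x + z + y := by abel
  have n2 : x + y - z = x + (y - z) := by abel
  have n3 : x + z - y = x - (y - z) := by abel
  have n4 : y + z + x = x + y + z := by abel
  rw [n2] at e1
  rw [← n1, n3] at e2
  linarith

/-- The polar form of `h` as a biadditive map. -/
def pol (x : A) : A →+ ℤ where
  toFun y := h (x + y) - h x - h y
  map_zero' := by simp [q_zero h hp]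
  map_add' y z := by
    have := q_add3 h hp x y z
    rw [← add_assoc, this]
    ring

lemma pol_apply (x y : A) : pol h hp x y = h (x + y) - h x - h y := rfl

lemma pol_comm (x y : A) : pol h hp x y = pol h hp y x := by
  rw [pol_apply, pol_apply, add_comm x y]; ring

lemma q_add (x y : A) : h (x + y) = h x + h y + pol h hp x y := by
  rw [pol_apply]; ring

lemma pol_self (x : A) : pol h hp x x = 2 * h x := by
  rw [pol_apply]
  have := hp x x
  rw [sub_self, q_zero h hp] at this
  linarith

lemma pol_zsmul_right (n : ℤ) (x y : A) : pol h hp x (n • y) = n * pol h hp x y := by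
  rw [map_zsmul, smul_eq_mul]

lemma pol_zsmul_left (n : ℤ) (x y : A) : pol h hp (n • x) y = n * pol h hp x y := by
  rw [pol_comm, pol_zsmul_right, pol_comm]

lemma q_zsmul (n : ℤ) (x : A) : h (n • x) = n ^ 2 * h x := by
  have h1 := pol_self h hp (n • x)
  rw [pol_zsmul_right, pol_zsmul_left, pol_self] at h1
  linarith

lemma q_sub (x y : A) : h (x - y) = h x + h y - pol h hp x y := by
  have := hp x y
  rw [q_add h hp x y] at this
  linarith

lemma q_comb (a b c : ℤ) (x y z : A) : h (a • x + b • y + c • z) =
    a ^ 2 * h x + b ^ 2 * h y + c ^ 2 * h z + a * b * pol h hp x y + a * c * pol h hp x z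
      + b * c * pol h hp y z := by
  rw [q_add h hp, q_add h hp, q_zsmul h hp, q_zsmul h hp, q_zsmul h hp, pol_comm h hp (a • x + b • y),
    map_add, pol_zsmul_left, pol_zsmul_left, pol_zsmul_left, pol_zsmul_right, pol_zsmul_right,
    pol_zsmul_right, pol_comm h hp z x, pol_comm h hp z y]
  ring

/-- The key degree computation behind the Cayley-Hamilton relation for Frobenius. -/
lemma q_cayley (g0 g1 g2 : A) (q a : ℤ) (h0 : h g0 = 1) (h1 : h g1 = q) (h2 : h g2 = q ^ 2)
    (h01 : h (g1 - g0) = q + 1 - a) (h12 : h (g2 + g1) = q * h (g1 + g0))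
    (h02 : h (g2 - g0) = h (g1 - g0) * h (g1 + g0)) :
    h (g2 - a • g1 + q • g0) = 0 := by
  have e01 : pol h hp g1 g0 = a := by
    rw [q_sub h hp, h0, h1] at h01; linarith
  have e1 : h (g1 + g0) = q + 1 + a := by
    rw [q_add h hp, e01, h0, h1]
  have e12 : pol h hp g2 g1 = q * a := by
    rw [e1, q_add h hp, h1, h2] at h12; linarith
  have e02 : pol h hp g2 g0 = a ^ 2 - 2 * q := by
    rw [h01, e1, q_sub h hp, h0, h2] at h02
    linarith
  have : g2 - a • g1 + q • g0 = (1 : ℤ) • g2 + (-a) • g1 + q • g0 := by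
    rw [one_smul, neg_smul, sub_eq_add_neg]
  rw [this, q_comb h hp, h0, h1, h2, e01, e12, e02]
  ring

end Fermat.Agent.Schoof
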