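import Fermat.Agent.Schoof.FField
import Fermat.Agent.Schoof.QForm

set_option autoImplicit false

/-!
# The generic point, its universal property, and Frobenius
-/

open Polynomial WeierstrassCurve WeierstrassCurve.Affine WeierstrassCurve.Affine.Point

namespace Fermat.Agent.Schoof

section univ

variable {F : Type*} [Field F] (a₂ a₄ a₆ : F)

lemma nonsing_of_eq {L : Type*} [Field L] [Algebra F L] [(cur a₂ a₄ a₆).IsElliptic] {x y : L}
    (h : y ^ 2 = aeval x (cub a₂ a₄ a₆)) :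
    ((cur a₂ a₄ a₆)⁄L).Nonsingular x y := by
  have : ((cur a₂ a₄ a₆)⁄L).IsElliptic :=
    inferInstanceAs ((cur a₂ a₄ a₆).map (algebraMap F L)).IsElliptic
  rw [← equation_iff_nonsingular, equation_iff]
  simp [cur, cub] at h ⊢
  exact h

lemma eq_of_nonsing {L : Type*} [Field L] [Algebra F L] {x y : L}
    (h : ((cur a₂ a₄ a₆)⁄L).Nonsingular x y) :
    y ^ 2 = aeval x (cub a₂ a₄ a₆) := by
  have h' := h.1
  rw [equation_iff] at h'
  simp [cur, cub] at h' ⊢
  exact h'

/-- the substitution homomorphism -/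
noncomputable def subst {L : Type*} [Field L] [Algebra F L] (x : L) (hx : Transcendental F x) :
    RatFunc F →ₐ[F] L :=
  RatFunc.liftAlgHom (aeval x) (by
    intro p hp
    rw [Submonoid.mem_comap, mem_nonZeroDivisors_iff_ne_zero]
    intro h0
    exact (mem_nonZeroDivisors_iff_ne_zero.mp hp) (transcendental_iff.mp hx p h0))

@[simp] lemma subst_algebraMap {L : Type*} [Field L] [Algebra F L] (x : L)
    (hx : Transcendental F x) (p : F[X]) :
    subst x hx (algebraMap F[X] (RatFunc F) p) = aeval x p :=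
  RatFunc.liftRingHom_algebraMap _ _ _

@[simp] lemma subst_X {L : Type*} [Field L] [Algebra F L] (x : L)
    (hx : Transcendental F x) :
    subst x hx RatFunc.X = x := by
  rw [← RatFunc.algebraMap_X, subst_algebraMap, aeval_X]

lemma ratFunc_algHom_ext {L : Type*} [Field L] [Algebra F L] {φ ψ : RatFunc F →ₐ[F] L}
    (h : φ RatFunc.X = ψ RatFunc.X) : φ = ψ := by
  have hp : ∀ p : F[X], φ (algebraMap F[X] (RatFunc F) p) = ψ (algebraMap F[X] (RatFunc F) p) := by
    intro p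
    rw [← RatFunc.aeval_X_left_eq_algebraMap, ← aeval_algHom_apply, ← aeval_algHom_apply, h]
  ext r
  rw [← RatFunc.num_div_denom r, map_div₀, map_div₀, hp, hp]

/-- Universal property of the function field. -/
theorem exists_hom {L : Type*} [Field L] [Algebra F L] (x y : L) (hx : Transcendental F x)
    (h : y ^ 2 = aeval x (cub a₂ a₄ a₆)) :
    ∃ θ : FF a₂ a₄ a₆ →ₐ[F] L, θ QuadraticAlgebra.omega = y ∧
      ∀ r : RatFunc F, θ (algebraMap (RatFunc F) (FF a₂ a₄ a₆) r) = subst x hx r := by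
  let φ := subst x hx
  let _ := φ.toRingHom.toAlgebra
  have : IsScalarTower F (RatFunc F) L := IsScalarTower.of_algebraMap_eq fun r => by
    change _ = φ _
    rw [AlgHom.commutes]
  have hy : y * y = cubK a₂ a₄ a₆ • (1 : L) + (0 : RatFunc F) • y := by
    rw [zero_smul, add_zero, Algebra.smul_def, mul_one, ← pow_two, h]
    change _ = φ _
    rw [subst_algebraMap]
  let θ := (QuadraticAlgebra.lift ⟨y, hy⟩ : FF a₂ a₄ a₆ →ₐ[RatFunc F] L)
  refine ⟨θ.restrictScalars F, ?_, ?_⟩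
  · change θ _ = _
    simp [θ]
  · intro r
    change θ _ = _
    rw [AlgHom.commutes]
    rfl

lemma omega_sq : (QuadraticAlgebra.omega : FF a₂ a₄ a₆) ^ 2 =
    algebraMap (RatFunc F) (FF a₂ a₄ a₆) (cubK a₂ a₄ a₆) := by
  rw [pow_two, QuadraticAlgebra.omega_mul_omega_eq_add]
  simp [Algebra.smul_def]

lemma omega_sq' : (QuadraticAlgebra.omega : FF a₂ a₄ a₆) ^ 2 =
    aeval (algebraMap (RatFunc F) (FF a₂ a₄ a₆) RatFunc.X) (cub a₂ a₄ a₆) := by
  rw [omega_sq, aeval_algebraMap_apply, RatFunc.aeval_X_left_eq_algebraMap]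

variable [(cur a₂ a₄ a₆).IsElliptic]

/-- the generic point -/
noncomputable def G : ((cur a₂ a₄ a₆)⁄(FF a₂ a₄ a₆)).Point :=
  .some (algebraMap (RatFunc F) (FF a₂ a₄ a₆) RatFunc.X) QuadraticAlgebra.omega
    (nonsing_of_eq a₂ a₄ a₆ (omega_sq' a₂ a₄ a₆))

lemma G_mem : G a₂ a₄ a₆ ∈ Odd a₂ a₄ a₆ := by
  rw [mem_Odd, G, Point.map_some, neg_some, some.injEq]
  constructor
  · ext <;> simp
  · rw [negY]
    ext <;> simp [cur]

lemma ht_G : ht (G a₂ a₄ a₆) = 1 := by
  simp [ht, G]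

variable {a₂ a₄ a₆}

/-- Universal property of the generic point. -/
theorem exists_hom_point {L : Type*} [Field L] [Algebra F L] [DecidableEq L] (x y : L)
    (hx : Transcendental F x) (h : ((cur a₂ a₄ a₆)⁄L).Nonsingular x y) :
    ∃ θ : FF a₂ a₄ a₆ →ₐ[F] L, Point.map θ (G a₂ a₄ a₆) = .some x y h ∧
      ∀ r : RatFunc F, θ (algebraMap (RatFunc F) (FF a₂ a₄ a₆) r) = subst x hx r := by
  obtain ⟨θ, h1, h2⟩ := exists_hom a₂ a₄ a₆ x y hx (eq_of_nonsing a₂ a₄ a₆ h)
  refine ⟨θ, ?_, h2⟩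
  rw [G, Point.map_some, some.injEq]
  exact ⟨by rw [h2, subst_X], h1⟩

end univ

section frob

variable {F : Type*} [Field F] [Fintype F] {a₂ a₄ a₆ : F}

/-- Frobenius on points -/
noncomputable def frob (a₂ a₄ a₆ : F) (L : Type*) [Field L] [Algebra F L] [DecidableEq L] :
    ((cur a₂ a₄ a₆)⁄L).Point →+ ((cur a₂ a₄ a₆)⁄L).Point :=
  Point.map (FiniteField.frobeniusAlgHom F L)

lemma frob_map {L M : Type*} [Field L] [Algebra F L] [DecidableEq L] [Field M] [Algebra F M]
    [DecidableEq M] (θ : L →ₐ[F] M) (P : ((cur a₂ a₄ a₆)⁄L).Point) :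
    frob a₂ a₄ a₆ M (Point.map θ P) = Point.map θ (frob a₂ a₄ a₆ L P) := by
  rw [frob, frob, Point.map_map, Point.map_map]
  congr 1
  refine congrArg _ ?_
  refine AlgHom.ext fun x => ?_
  exact (map_pow θ x _).symm

lemma frob_mem_Odd {P : ((cur a₂ a₄ a₆)⁄(FF a₂ a₄ a₆)).Point} (hP : P ∈ Odd a₂ a₄ a₆) :
    frob a₂ a₄ a₆ _ P ∈ Odd a₂ a₄ a₆ := by
  rw [mem_Odd] at hP ⊢
  rw [← frob_map, hP, map_neg]

lemma ht_frob (h2 : (2 : F) ≠ 0) {P : ((cur a₂ a₄ a₆)⁄(FF a₂ a₄ a₆)).Point}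
    (hP : P ∈ Odd a₂ a₄ a₆) : ht (frob a₂ a₄ a₆ _ P) = Fintype.card F * ht P := by
  have h := xco_eq h2 hP
  have h' := xco_eq h2 (frob_mem_Odd hP)
  have hh := hasHt_xco P
  have hh' := hasHt_xco (frob a₂ a₄ a₆ _ P)
  match P, hP, h, h', hh, hh' with
  | 0, hP, h, h', hh, hh' => rw [_root_.map_zero]; rfl
  | .some x y hxy, hP, h, h', hh, hh' =>
    have e : x = algebraMap (RatFunc F) (FF a₂ a₄ a₆) x.re := (congrFun h 0).symm
    have e2 : xco (frob a₂ a₄ a₆ _ (Point.some x y hxy)) = ![x.re ^ Fintype.card F, 1] := by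
      have hinj := (algebraMap (RatFunc F) (FF a₂ a₄ a₆)).injective
      funext i
      apply hinj
      rw [congrFun h' i]
      rw [frob, Point.map_some, xRep_some]
      fin_cases i
      · simp only [Fin.zero_eta, Matrix.cons_val_zero, map_pow, ← e]
        simp
      · simp
    rw [e2] at hh'
    rw [mul_comm]
    exact hh'.unique (HasHt.pow hh (Fintype.card F))

end frob

end Fermat.Agent.Schoof
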